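import Fermat.Agent.FLAT.Curve.NodalModel
import Fermat.Agent.FLAT.Red
import Fermat.Prelude.Def_WeierstrassCurve_PeuRamifiee
import Fermat.Prelude.Def_FreyPackage_GaloisRep

/-!
# `E[p]` at a semistable `p` with `p ∣ ord Δ` is finite flat

`nonempty_model_torsion_of_dvd`: every torsion point has an integral scale at the node, so
`NodalModel` gives a model over `ℤ_(p)`. `BAD/AtP/Local` uses it for the Frey curve at `p`.
-/

set_option autoImplicit false
set_option linter.unusedSectionVars false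

noncomputable section

open WeierstrassCurve IsLocalRing Fermat.EC Fermat.EC.Val Fermat.EC.Red Fermat.EC.Node
open scoped WeierstrassCurve.Affine Classical

namespace Fermat.FLAT

local notation "ℚbar" => AlgebraicClosure ℚ
local notation "Γℚ" => (AlgebraicClosure ℚ ≃ₐ[ℚ] AlgebraicClosure ℚ)

namespace Curve

variable {p : ℕ} [hp : Fact p.Prime] {A : ValuationSubring ℚbar}

/-- An element of order `0` has nonzero residue. -/
lemma residue_ne_zero_of_is (h : IsPlace A p) {X : A} (hX : Is A p (X : ℚbar) 0) :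
    residue A X ≠ 0 := by
  intro h0
  have hr : FLAT.red A (X : ℚbar) = 0 := by rw [red_of_mem X.2]; exact h0
  have := (red_eq_zero_iff h hX.ge).mp hr
  exact absurd (hX.2 ▸ this.resolve_left hX.1) (lt_irrefl _)

/-- An element with zero residue has positive order. -/
lemma gt_of_residue_eq_zero (h : IsPlace A p) {X : A} (hX : residue A X = 0) :
    Gt A p (X : ℚbar) 0 := by
  refine (red_eq_zero_iff h ((mem_iff_ge h _).mp X.2)).mp ?_
  rw [red_of_mem X.2]
  exact hX

/-- The nodal model over `ℤ_(p)` at a multiplicative prime, as seen at the place. -/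
lemma isNodal_overQbar (h : IsPlace A p) (V : WeierstrassCurve ℤ) {m : ℕ} (hm : 1 ≤ m)
    (h3 : (p : ℤ) ^ (m + 1) ∣ V.a₃) (h4 : (p : ℤ) ^ (m + 1) ∣ V.a₄) (ha0 : V.a₆ ≠ 0)
    (hva : padicValInt p V.a₆ = m) (hb : ¬ (p : ℤ) ∣ V.b₂) :
    IsNodal A p (overQbar V) (m : ℚ) ((m : ℚ) + 1) := by
  refine ⟨integralAt_overQbar V h, by exact_mod_cast hm, lt_add_one _, ?_, ?_, ?_, ?_⟩
  · rw [overQbar_a₃]; exact_mod_cast ge_intCast_of_dvd h h3
  · rw [overQbar_a₄]; exact_mod_cast ge_intCast_of_dvd h h4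
  · rw [overQbar_a₆]
    refine ⟨Int.cast_ne_zero.mpr ha0, ?_⟩
    rw [ord_intCast h ha0, hva]
  · have : (overQbar V).b₂ = ((V.b₂ : ℤ) : ℚbar) := by
      simp [overQbar, WeierstrassCurve.baseChange, map_b₂]
    rw [this]; exact is_intCast h hb

/-- A point whose abscissa is not integral reduces to the point at infinity, which is
nonsingular. -/
theorem exists_rep_nonsingular_of_notMem (V : WeierstrassCurve ℤ) {x y : ℚbar}
    (hns : (overQbar V).toAffine.Nonsingular x y) (hxA : x ∉ A) :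
    ∃ v : Fin 3 → A, Rep (overP V) (up v) (Affine.Point.some x y hns) ∧
      (overRes V A).Nonsingular (red v) := by
  obtain ⟨v, hv, hvr⟩ := exists_primitive (A := A) (W := V) (Affine.Point.some x y hns)
  refine ⟨v, hv, ?_⟩
  obtain ⟨l, hl, e⟩ := hv.exists_smul
  have e0 : (v 0 : ℚbar) = l * x := by simpa [up, cvec_some] using congrFun e 0
  have e2 : (v 2 : ℚbar) = l := by simpa [up, cvec_some] using congrFun e 2
  have hz : red v 2 = 0 := by
    by_contra hne
    apply hxA
    have hu := (residue_ne_zero_iff_isUnit _).mp hne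
    have : x = ((v 0 * (hu.unit⁻¹ : Aˣ) : A) : ℚbar) := by
      have h1 : ((hu.unit⁻¹ : Aˣ) : A) * v 2 = 1 := IsUnit.val_inv_mul hu
      have h2 := congrArg (fun a : A => (a : ℚbar)) h1
      push_cast at h2 ⊢
      rw [e2] at h2
      rw [e0]
      linear_combination -x * h2
    rw [this]
    exact SetLike.coe_mem _
  have heq := equation_red hv.1.left
  have hx0 : red v 0 = 0 := Projective.X_eq_zero_of_Z_eq_zero heq hz
  have hy : red v 1 ≠ 0 := fun hy => hvr (by
    funext k; fin_cases k <;> simp [hz, hy, hx0])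
  have : red v = red v 1 • ![0, 1, 0] := by
    funext k; fin_cases k <;> simp [hz, hx0]
  rw [this]
  exact (Projective.nonsingular_smul _ hy.isUnit).mpr Projective.nonsingular_zero

/-- `p`-torsion points of a nodal model with `p ∣ m` have integral scales. -/
theorem hasScale_torsion (h : IsPlace A p) (hp2 : p ≠ 2) (V : WeierstrassCurve ℤ) {m : ℕ}
    (hm : 1 ≤ m) (h3 : (p : ℤ) ^ (m + 1) ∣ V.a₃) (h4 : (p : ℤ) ^ (m + 1) ∣ V.a₄)
    (ha0 : V.a₆ ≠ 0) (hva : padicValInt p V.a₆ = m) (hb : ¬ (p : ℤ) ∣ V.b₂) (hΔ : V.Δ ≠ 0)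
    (hpm : p ∣ m) {P : (overQbar V).Point} (hP : p • P = 0) : HasScale A p P := by
  have hN : NodeAt V p := ⟨(dvd_pow_self _ (Nat.succ_ne_zero m)).trans h3,
    (dvd_pow_self _ (Nat.succ_ne_zero m)).trans h4,
    (padicValInt_dvd_iff 1 V.a₆).mpr (Or.inr (hva.symm ▸ hm)) |> fun e => by simpa using e, hb, hΔ⟩
  have hI := isNodal_overQbar h V hm h3 h4 ha0 hva hb
  rcases P with _ | ⟨x, y, hns⟩
  · left
    refine ⟨0, ![0, 1, 0], ?_, ?_⟩
    · have : up (![0, 1, 0] : Fin 3 → A) = ![(0 : ℚbar), 1, 0] := by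
        funext k; fin_cases k <;> simp [up]
      rw [this]
      exact rep_cvec (E := overP V) 0
    · have : red (![0, 1, 0] : Fin 3 → A) = ![(0 : ResidueField A), 1, 0] := by
        funext k; fin_cases k <;> simp [red]
      rw [this]
      exact rep_cvec (E := overRes V A) 0
  -- a primitive vector with nonsingular reduction lifts
  have hlift : ∀ v : Fin 3 → A, Rep (overP V) (up v) (Affine.Point.some x y hns) →
      (overRes V A).Nonsingular (red v) → HasScale A p (Affine.Point.some x y hns) :=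
    fun v hv hr => Or.inl ⟨_, v, hv, hr, rfl⟩
  by_cases hxA : x ∈ A
  swap
  · obtain ⟨v, hv, hr⟩ := exists_rep_nonsingular_of_notMem V hns hxA
    exact hlift v hv hr
  have hgx : Ge A p x 0 := (mem_iff_ge h x).mp hxA
  have hgy : Ge A p y 0 := ge_y h hI.int hns.1 hgx
  set v : Fin 3 → A := ![⟨x, hxA⟩, ⟨y, (mem_iff_ge h y).mpr hgy⟩, 1] with hv
  have hup : up v = ![x, y, 1] := by funext k; fin_cases k <;> simp [up, hv]
  have hrep : Rep (overP V) (up v) (Affine.Point.some x y hns) :=
    hup ▸ rep_cvec (E := overP V) (Affine.Point.some x y hns)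
  have hre : red v = ![residue A ⟨x, hxA⟩, residue A ⟨y, (mem_iff_ge h y).mpr hgy⟩, 1] := by
    funext k; fin_cases k <;> simp [red, hv]
  have heq : (overRes V A).toAffine.Equation (residue A ⟨x, hxA⟩)
      (residue A ⟨y, (mem_iff_ge h y).mpr hgy⟩) := by
    have := equation_red hrep.1.left
    rwa [hre, Projective.equation_some] at this
  by_cases hx0 : residue A ⟨x, hxA⟩ = 0
  swap
  · exact hlift v hrep (hre ▸ (Projective.nonsingular_some _ _).mpr
      (red_nonsingular_of_x_ne_zero h hN heq hx0))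
  -- the point reduces to the node: it is `(p^s X, p^s Y)` with `2 s < m` and `X` a unit
  right
  have gy : Gt A p y 0 := by
    refine gt_of_residue_eq_zero h (X := ⟨y, (mem_iff_ge h y).mpr hgy⟩) ?_
    rw [red_equation_iff h hN, hx0] at heq
    exact pow_eq_zero_iff two_ne_zero |>.mp (by linear_combination heq)
  have hnE0 : ¬ InE0 A p (Affine.Point.some x y hns) := fun e =>
    e (singRed_of_gt h hI (gt_of_residue_eq_zero h hx0) gy)
  obtain ⟨x', y', hns', r, e', hlow⟩ := low_of_torsion h hI (hp.out.odd_of_ne_two hp2) hP hnE0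
  obtain ⟨rfl, rfl⟩ := Affine.Point.some.inj e'
  obtain ⟨j, hj⟩ := component h hI hp.out hp2 hP hlow
  obtain ⟨k, hk⟩ := hpm
  have hr : r = ((j * k : ℤ) : ℚ) := by
    apply mul_left_cancel₀ (show (p : ℚ) ≠ 0 by exact_mod_cast hp.out.ne_zero)
    rw [hj, hk]; push_cast; ring
  obtain ⟨hr0, hrm, hxr, hyr⟩ := hlow
  have hjk : 0 < j * k := by
    have : (0 : ℚ) < ((j * k : ℤ) : ℚ) := hr ▸ hr0
    exact_mod_cast this
  obtain ⟨s, hs⟩ : ∃ s : ℕ, j * k = s := ⟨(j * k).toNat, (Int.toNat_of_nonneg hjk.le).symm⟩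
  have hrs : r = (s : ℚ) := by rw [hr, hs]; rfl
  have hsm : 2 * s + 1 ≤ m := by
    have : (2 * s : ℚ) < (m : ℚ) := by rw [hrs] at hrm; linarith
    have : 2 * s < m := by exact_mod_cast this
    omega
  have hps : Is A p ((p : ℚbar) ^ s) (s : ℚ) := by
    simpa using (show Is A p (p : ℚbar) 1 from ⟨Nat.cast_ne_zero.mpr h.1.ne_zero, ord_q h⟩).pow h s
  have hX : Is A p (x / (p : ℚbar) ^ s) 0 := by
    simpa [hrs] using hxr.div h hps
  have hY : Ge A p (y / (p : ℚbar) ^ s) 0 := by
    simpa [hrs] using hyr.div h hps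
  have ex : (p : ℚbar) ^ s * (x / (p : ℚbar) ^ s) = x :=
    mul_div_cancel₀ _ (natCast_pow_ne_zero (p := p) h s)
  have ey : (p : ℚbar) ^ s * (y / (p : ℚbar) ^ s) = y :=
    mul_div_cancel₀ _ (natCast_pow_ne_zero (p := p) h s)
  refine ⟨s, by omega, ⟨(pow_dvd_pow _ (by omega)).trans h3, (pow_dvd_pow _ (by omega)).trans h4,
    ?_⟩, ⟨_, (mem_iff_ge h _).mpr hX.ge⟩, ⟨_, (mem_iff_ge h _).mpr hY⟩, ?_,
    residue_ne_zero_of_is h hX, ?_⟩
  · exact (padicValInt_dvd_iff _ _).mpr (Or.inr (hva.symm ▸ hsm))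
  · simpa only [ex, ey] using hns
  · simp only [ex, ey]

/-- Transport of points along an equality of curves. -/
def castHom {E E' : Affine ℚbar} (e : E = E') : E.Point →+ E'.Point := e ▸ AddMonoidHom.id _

/-- `castHom` keeps the coordinates. -/
lemma castHom_some {E E' : Affine ℚbar} (e : E = E') {x y : ℚbar} (hn : E.Nonsingular x y) :
    castHom e (Affine.Point.some x y hn) = Affine.Point.some x y (e ▸ hn) := by
  subst e; rfl

/-- `castHom` is injective. -/
lemma castHom_injective {E E' : Affine ℚbar} (e : E = E') : Function.Injective (castHom e) := by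
  subst e; exact fun a b => id

/-- The translated model receives the points, equivariantly. -/
theorem exists_trans_hom (W : WeierstrassCurve ℤ) (r t : ℤ) :
    ∃ φ : (overQbar W).Point →+ (overQbar (Fermat.EC.trans r t • W)).Point, Function.Injective φ ∧
      ∀ (σ : Γℚ) (P : (overQbar W).Point), φ (σ • P) = σ • φ P := by
  set C : VariableChange ℚbar := ⟨1, (r : ℚbar), 0, (t : ℚbar)⟩ with hC
  have eV : changed C (overQbar W) = overQbar (Fermat.EC.trans r t • W) := by
    ext <;>
      simp [changed, overQbar, hC, Fermat.EC.trans, variableChange_a₁, variableChange_a₂,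
        variableChange_a₃, variableChange_a₄, variableChange_a₆]
  refine ⟨(castHom eV).comp (pointHom C (overQbar W)),
    (castHom_injective eV).comp (pointHom_injective C (overQbar W)), fun σ P => ?_⟩
  cases P with
  | zero => simp only [← Affine.Point.zero_def, gal_smul_zero, map_zero]
  | some x y hns =>
    obtain ⟨h', e⟩ := smul_some W σ hns
    rw [e]
    simp only [AddMonoidHom.coe_comp, Function.comp_apply, pointHom_some, castHom_some]
    obtain ⟨h'', e''⟩ := smul_some (Fermat.EC.trans r t • W) σ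
      (eV ▸ nonsingular_new C (overQbar W) hns : (overQbar (Fermat.EC.trans r t • W)).Nonsingular
        (newX C x) (newY C x y))
    rw [e'']
    simp only [Affine.Point.some.injEq]
    constructor <;> simp [hC, newX, newY, map_sub]

end Curve

variable {p : ℕ} [hp : Fact p.Prime] {A : ValuationSubring (AlgebraicClosure ℚ)}

/-- The `n`-torsion as a subgroup. -/
abbrev torsionGroup (W : WeierstrassCurve ℤ) (n : ℕ) : AddSubgroup (overQbar W).Point :=
  (Submodule.torsionBy ℤ (overQbar W).Point (n : ℤ)).toAddSubgroup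

/-- Membership in the `n`-torsion subgroup means being killed by `n`. -/
lemma mem_torsionGroup {W : WeierstrassCurve ℤ} {n : ℕ} {P : (overQbar W).Point} :
    P ∈ torsionGroup W n ↔ n • P = 0 := by
  change P ∈ Submodule.torsionBy ℤ _ (n : ℤ) ↔ _
  rw [Submodule.mem_torsionBy_iff, natCast_zsmul]

/-- The `n`-torsion is Galois stable. -/
lemma torsionGroup_stable (W : WeierstrassCurve ℤ) (n : ℕ) :
    ∀ σ : Γℚ, ∀ P ∈ torsionGroup W n, σ • P ∈ torsionGroup W n :=
  fun σ _ hP => WeierstrassCurve.Affine.Point.smul_mem_torsionBy σ hP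

/-- For nonzero discriminant the `n`-torsion is finite. -/
lemma finite_torsionGroup (W : WeierstrassCurve ℤ) (hΔ : W.Δ ≠ 0) {n : ℕ} (hn : 1 ≤ n) :
    Finite (torsionGroup W n) := by
  have hΔ' : (overQbar W).Δ ≠ 0 := by
    rw [overQbar_Δ]
    exact_mod_cast hΔ
  have : Finite (Submodule.torsionBy ℤ (overQbar W).Point (n : ℤ)) :=
    Nat.finite_of_card_ne_zero (by rw [card_torsionBy (W := overQbar W) hΔ' hn]; positivity)
  exact ‹Finite (Submodule.torsionBy ℤ (overQbar W).Point (n : ℤ))›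

/-- **`E[p]` at a semistable odd `p` with `p ∣ ord_p Δ`**: a model over `ℤ_(p)`. -/
theorem nonempty_model_torsion_of_dvd (W : WeierstrassCurve ℤ) (hΔ : W.Δ ≠ 0) (hp2 : p ≠ 2)
    (hss : (p : ℤ) ∣ W.Δ → ¬ (p : ℤ) ∣ W.c₄) (hdvd : p ∣ padicValInt p W.Δ) (h : IsPlace A p) :
    Nonempty (Model A (⊤ : Subgroup Γℚ)
      (fun σ => Curve.galHom (torsionGroup_stable W p) σ)) := by
  have := finite_torsionGroup W hΔ hp.out.one_le
  by_cases hbad : (p : ℤ) ∣ W.Δ
  swap
  · exact Curve.nonempty_model_top W h hbad _ _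
  set m := padicValInt p W.Δ with hm
  have hm1 : 1 ≤ m := (padicValInt_dvd_iff 1 W.Δ |>.mp (by simpa using hbad)).resolve_left hΔ
  -- move the node of the reduction to the origin, use the nodal model, restrict back
  obtain ⟨r, t, h3, h4, h6, hb⟩ := exists_node_int W hp.out hbad (hss hbad) (m + 1)
  set V := Fermat.EC.trans r t • W with hV
  have hVΔ : V.Δ = W.Δ := trans_Δ W r t
  obtain ⟨hva, ha0⟩ := padicValInt_a₆_eq V hp.out h3 h4 h6 hb (hVΔ ▸ hΔ)
    (by rw [hVΔ]; exact Nat.lt_succ_self m)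
  rw [hVΔ, ← hm] at hva
  have := finite_torsionGroup V (hVΔ ▸ hΔ) hp.out.one_le
  obtain ⟨G⟩ := Curve.nonempty_model_nodal h
    ⟨(dvd_pow_self _ (Nat.succ_ne_zero m)).trans h3, (dvd_pow_self _ (Nat.succ_ne_zero m)).trans h4,
      h6, hb, hVΔ ▸ hΔ⟩ (torsionGroup V p) (torsionGroup_stable V p)
    (fun P hP => Curve.hasScale_torsion h hp2 V hm1 h3 h4 ha0 hva hb (hVΔ ▸ hΔ) hdvd
      (mem_torsionGroup.mp hP))
  obtain ⟨φ, hφ, hφσ⟩ := Curve.exists_trans_hom W r t
  refine ⟨G.restrict ((φ.comp (torsionGroup W p).subtype).codRestrict (torsionGroup V p)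
    fun P => mem_torsionGroup.mpr ?_) (fun P Q e => Subtype.ext (hφ (congrArg Subtype.val e)))
    fun σ _ P => Subtype.ext (hφσ σ (P : (overQbar W).Point))⟩
  rw [← map_nsmul, show p • P = 0 from Subtype.ext (mem_torsionGroup.mp P.2), map_zero]

end Fermat.FLAT
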