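import Fermat.Agent.RED.Flat.VecModel

/-!
# Models from projective charts

A finite Galois module `M` with a family of equivariant maps `c t : M → ℙ²(ℚbar)`, one of which is
injective, has a model over `ℤ_(p)` as soon as, at every pair of points, each `c t (x + y)` is
locally a vector of functions of the `c t' x`, `c t' y` over the place.
-/

set_option autoImplicit false
set_option linter.unusedSectionVars false

noncomputable section

open Fermat.EC.Val

namespace Fermat.FLAT.Curve

local notation "ℚbar" => AlgebraicClosure ℚ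
local notation "Γℚ" => (AlgebraicClosure ℚ ≃ₐ[ℚ] AlgebraicClosure ℚ)

variable {p : ℕ} [hp : Fact p.Prime] {A : ValuationSubring ℚbar}

/-! ### Vectors of functions -/

section Vectors

variable {ι : Type*} {T : Subalgebra A (ι → A)}

/-- The values at a point of a vector of functions. -/
def vec (U : Fin 3 → T) (i : ι) : Fin 3 → A := fun k => (U k : ι → A) i

/-- `φ` is given near `i₀` by a vector of functions in `T`, primitive at `i₀`. -/
def HasVec (T : Subalgebra A (ι → A)) (φ : ι → Fin 3 → ℚbar) (i₀ : ι) : Prop :=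
  ∃ U : Fin 3 → T, (∀ i, ∃ l : ℚbar, up (vec U i) = l • φ i) ∧ red (vec U i₀) ≠ 0

/-- Constant vectors. -/
def constVec (T : Subalgebra A (ι → A)) (r : Fin 3 → A) : Fin 3 → T :=
  fun k => algebraMap A T (r k)

/-- A constant vector has the same value everywhere. -/
lemma vec_constVec (r : Fin 3 → A) (i : ι) : vec (constVec T r) i = r := rfl

/-- Evaluation of an algebra of functions. -/
def evalAt (T : Subalgebra A (ι → A)) (i : ι) : T →+* A :=
  (Pi.evalRingHom (fun _ : ι => A) i).comp T.val.toRingHom

/-- `HasVec` is the coordinatewise condition `HasVecAt`. -/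
lemma hasVec_iff {φ : ι → Fin 3 → ℚbar} {i₀ : ι} :
    HasVec T φ i₀ ↔ RED.Flat.HasVecAt T φ i₀ :=
  ⟨fun ⟨U, h, hr⟩ => ⟨U, fun i => (h i).imp fun _ e k => congrFun e k, hr⟩,
    fun ⟨U, h, hr⟩ => ⟨U, fun i => (h i).imp fun _ e => funext e, hr⟩⟩

end Vectors

/-! ### The model -/

variable {M : Type*} [AddCommGroup M] [Finite M] {g : Γℚ →* AddMonoid.End M}
  {τ : Type*} [Finite τ]

/-- **Models from charts.** Equivariant projective coordinates, one injective and compatible with
addition over the place, give a model of the module. -/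
theorem nonempty_model_of_charts (h : IsPlace A p) (c : τ → M → Fin 3 → ℚbar)
    (hc : ∀ t x, c t x ≠ 0) (heq : ∀ t σ x, c t (g σ x) = fun k => σ (c t x k))
    {t₀ : τ} (hsep : ∀ x y, (∃ l : ℚbar, c t₀ x = l • c t₀ y) → x = y)
    (hsum : ∀ T : Subalgebra A (M × M → A),
      (∀ t z₀, HasVec T (fun z => c t z.1) z₀) → (∀ t z₀, HasVec T (fun z => c t z.2) z₀) →
      ∀ t z₀, HasVec T (fun z => c t (z.1 + z.2)) z₀) :
    Nonempty (Model A (⊤ : Subgroup Γℚ) (fun σ => g σ)) := by
  obtain ⟨G, -⟩ := RED.Flat.exists_model_of_vectors (g := g) h c hc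
    (fun t σ x => ⟨1, one_ne_zero, by rw [one_smul]; exact heq t σ x⟩)
    (fun x y hxy => hsep x y ((hxy t₀).imp fun _ e => e.2)) fun T h1 h2 t z₀ =>
      hasVec_iff.mp (hsum T (fun t' z => hasVec_iff.mpr (h1 t' z))
        (fun t' z => hasVec_iff.mpr (h2 t' z)) t z₀)
  exact ⟨G⟩

end Fermat.FLAT.Curve
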