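import Fermat.Agent.FLAT.Model
import Mathlib.Algebra.Algebra.Subalgebra.Pi
import Mathlib.Algebra.BigOperators.Fin
import Mathlib.RingTheory.Adjoin.Basic
import Mathlib.RingTheory.IntegralClosure.IsIntegralClosure.Basic

/-!
# Local membership in algebras of functions over a place, and descent to the fixed ring

The main result is `mem_of_mem_span`, descent from the span over the place.
-/

set_option autoImplicit false

noncomputable section

open IsLocalRing Fermat.EC.Val Polynomial

namespace Fermat.FLAT.Curve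

local notation "ℚbar" => AlgebraicClosure ℚ
local notation "Γℚ" => (AlgebraicClosure ℚ ≃ₐ[ℚ] AlgebraicClosure ℚ)

variable {A : ValuationSubring ℚbar}

section Local

variable {ι : Type*} [Finite ι] {T : Subalgebra A (ι → A)}

/-- A function in the algebra with unit values has its inverse in the algebra. -/
theorem exists_inv_mem {f : ι → A} (hf : f ∈ T) (hu : ∀ i, IsUnit (f i)) :
    ∃ g ∈ T, g * f = 1 := by
  classical
  have := Fintype.ofFinite ι
  set P : A[X] := ∏ i, (X - C (f i)) with hP
  have hev : ∀ i, P.eval (f i) = 0 := fun i => by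
    rw [hP, eval_prod]
    exact Finset.prod_eq_zero (Finset.mem_univ i) (by simp)
  have hc : IsUnit (P.coeff 0) := by
    rw [coeff_zero_eq_eval_zero, hP, eval_prod, IsUnit.prod_iff]
    exact fun i _ => by simpa using (hu i).neg
  set c : A := -(hc.unit⁻¹ : Aˣ) with hc'
  refine ⟨c • aeval f P.divX, T.smul_mem ((Algebra.adjoin_le (Set.singleton_subset_iff.mpr hf) :
      Algebra.adjoin A {f} ≤ T) (aeval_mem_adjoin_singleton A f)) _, funext fun i => ?_⟩
  have h1 : f i * P.divX.eval (f i) + P.coeff 0 = 0 := by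
    have h0 := congrArg (eval (f i)) (X_mul_divX_add P)
    rw [eval_add, eval_mul, eval_X, eval_C, hev i] at h0
    exact h0
  have h2 : (aeval f P.divX : ι → A) i = P.divX.eval (f i) := by
    have h := aeval_algHom_apply (Pi.evalAlgHom A (fun _ : ι => A) i) f P.divX
    simp only [Pi.evalAlgHom_apply] at h
    rw [← h, coe_aeval_eq_eval]
  rw [Pi.mul_apply, Pi.smul_apply, h2, smul_eq_mul, Pi.one_apply, hc']
  have h3 : ((hc.unit⁻¹ : Aˣ) : A) * P.coeff 0 = 1 := IsUnit.val_inv_mul hc
  linear_combination (-((hc.unit⁻¹ : Aˣ) : A)) * h1 + h3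

/-- Membership is local: it can be checked at each point by a denominator that is a unit there. -/
theorem mem_of_locally [Infinite (ResidueField A)] {F : ι → A}
    (h : ∀ i, ∃ s ∈ T, residue A (s i) ≠ 0 ∧ s * F ∈ T) : F ∈ T := by
  classical
  have := Fintype.ofFinite ι
  choose s hsT hs hsF using h
  -- for some residue `a` the combination `∑ a ^ u • s_u` is a unit at every point
  let e := Fintype.equivFin ι
  let q : ι → (ResidueField A)[X] := fun w => ∑ u, C (residue A (s u w)) * X ^ (e u : ℕ)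
  have hq : ∀ w, q w ≠ 0 := by
    intro w h0
    apply hs w
    have h1 := congrArg (fun r => r.coeff (e w : ℕ)) h0
    simp only [q, finsetSum_coeff, coeff_C_mul, coeff_X_pow, mul_ite, mul_one, mul_zero,
      coeff_zero] at h1
    rw [Finset.sum_eq_single w] at h1
    · simpa using h1
    · intro u _ hu
      exact if_neg fun hh => hu (e.injective (Fin.ext hh.symm))
    · simp
  obtain ⟨t, ht⟩ := Infinite.exists_notMem_finset (Finset.univ.biUnion fun w =>
    (q w).roots.toFinset)
  obtain ⟨a, rfl⟩ := residue_surjective (R := A) t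
  set f : ι → A := ∑ u, a ^ (e u : ℕ) • s u with hf
  have hfT : f ∈ T := sum_mem fun u _ => T.smul_mem (hsT u) _
  have hfu : ∀ w, IsUnit (f w) := by
    intro w
    rw [← not_not (a := IsUnit
      (f w)), ← mem_nonunits_iff, ← mem_maximalIdeal, ← residue_eq_zero_iff]
    intro h0
    refine ht (Finset.mem_biUnion.mpr ⟨w, Finset.mem_univ w, Multiset.mem_toFinset.mpr ?_⟩)
    rw [mem_roots (hq w), IsRoot.def, ← h0]
    simp only [q, hf, eval_finsetSum, eval_mul, eval_C, eval_pow, eval_X, Finset.sum_apply,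
      Pi.smul_apply, smul_eq_mul, map_sum, map_mul, map_pow]
    exact Finset.sum_congr rfl fun u _ => mul_comm _ _
  obtain ⟨g, hgT, hg⟩ := exists_inv_mem hfT hfu
  have hfF : f * F ∈ T := by
    rw [hf, Finset.sum_mul]
    exact sum_mem fun u _ => by rw [smul_mul_assoc]; exact T.smul_mem (hsF u) _
  have := mul_mem hgT hfF
  rwa [← mul_assoc, hg, one_mul] at this

end Local

variable {p : ℕ} [hp : Fact p.Prime] {H : Subgroup Γℚ} {M : Type*} [Finite M]
  {g : Γℚ → M → M}

/-- Equivariant functions with values in the place are integral over the fixed ring. -/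
theorem isIntegral_fun (hg : ∀ σ ∈ H, Function.Bijective (g σ)) {f : M → ℚbar}
    (hfA : ∀ x, f x ∈ A) (hf : ∀ σ ∈ H, ∀ x, f (g σ x) = σ (f x)) :
    IsIntegral (Rfix A H) f := by
  classical
  have := Fintype.ofFinite M
  set Q : ℚbar[X] := ∏ x, (X - C (f x)) with hQ
  have hQm : Q.Monic := monic_prod_of_monic _ _ fun x _ => monic_X_sub_C _
  have hcoeff : ∀ n, Q.coeff n ∈ Rfix A H := by
    intro n
    refine ⟨?_, fun σ hσ => ?_⟩
    · have : Q = (∏ x, (X - C (⟨f x, hfA x⟩ : A))).map A.subtype := by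
        rw [hQ, Polynomial.map_prod]
        exact Finset.prod_congr rfl fun x _ => by simp
      rw [this, coeff_map]
      exact SetLike.coe_mem _
    · have : Q.map (σ : ℚbar →+* ℚbar) = Q := by
        rw [hQ, Polynomial.map_prod]
        refine Fintype.prod_bijective (g σ) (hg σ hσ) _ _ fun x => ?_
        rw [hf σ hσ x]
        simp
      conv_rhs => rw [← this]
      rw [coeff_map]
      rfl
  obtain ⟨Q', hQ', -, hQ'm⟩ := lifts_and_natDegree_eq_and_monic (f := algebraMap (Rfix A H) ℚbar)
    (p := Q) ((lifts_iff_coeff_lifts _).mpr fun n => ⟨⟨_, hcoeff n⟩, rfl⟩) hQm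
  refine ⟨Q', hQ'm, funext fun x => ?_⟩
  have h1 := aeval_algHom_apply (Pi.evalAlgHom (Rfix A H) (fun _ : M => ℚbar) x) f Q'
  simp only [Pi.evalAlgHom_apply] at h1
  rw [← aeval_def, Pi.zero_apply, ← h1, aeval_def, eval₂_eq_eval_map, hQ', hQ, eval_prod]
  exact Finset.prod_eq_zero (Finset.mem_univ x) (by simp)

/-- **Descent**: an equivariant function in the span over the place lies in the algebra. -/
theorem mem_of_mem_span (h : IsPlace A p) (hI : A.inertiaSubgroupIn ℚ ≤ H)
    (hg : ∀ σ ∈ H, Function.Bijective (g σ)) {s : Set (M → ℚbar)} (hs : s.Finite)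
    (hsA : ∀ f ∈ s, ∀ x, f x ∈ A) (hse : ∀ f ∈ s, ∀ σ ∈ H, ∀ x, f (g σ x) = σ (f x))
    {F : M → ℚbar} (hFe : ∀ σ ∈ H, ∀ x, F (g σ x) = σ (F x))
    (hF : F ∈ Submodule.span A (Algebra.adjoin (Rfix A H) s : Set (M → ℚbar))) :
    F ∈ Algebra.adjoin (Rfix A H) s := by
  classical
  have := isPrincipalIdealRing_Rfix h hI
  set S := Algebra.adjoin (Rfix A H) s
  have hfg : (Subalgebra.toSubmodule S).FG :=
    fg_adjoin_of_finite hs fun f hf => isIntegral_fun hg (hsA f hf) (hse f hf)
  have : Module.Finite (Rfix A H) (Subalgebra.toSubmodule S) := Module.Finite.iff_fg.mpr hfg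
  have : Module.IsTorsionFree (Rfix A H) (Subalgebra.toSubmodule S) :=
    Module.IsTorsionFree.of_smul_eq_zero fun r f h =>
      (smul_eq_zero.mp (congrArg Subtype.val h : r • (f : M → ℚbar) = 0)).imp id Subtype.ext
  have : Module.Free (Rfix A H) (Subalgebra.toSubmodule S) :=
    Module.free_of_finite_type_torsion_free'
  -- the algebra is free over the fixed ring, with a basis independent over `ℚbar`
  let B := Module.finBasis (Rfix A H) (Subalgebra.toSubmodule S)
  set w : Fin _ → M → ℚbar := fun i => (B i : M → ℚbar) with hw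
  have hwe : ∀ f ∈ S, ∀ σ ∈ H, ∀ x, f (g σ x) = σ (f x) := by
    intro f hf
    induction hf using Algebra.adjoin_induction with
    | mem f hf => exact hse f hf
    | algebraMap r => intro σ hσ x; simp [algebraMap_Rfix, apply_Rfix hσ]
    | add u v _ _ hu hv =>
      intro σ hσ x; rw [Pi.add_apply, Pi.add_apply, map_add, hu σ hσ, hv σ hσ]
    | mul u v _ _ hu hv =>
      intro σ hσ x; rw [Pi.mul_apply, Pi.mul_apply, map_mul, hu σ hσ, hv σ hσ]
  have hli : LinearIndependent ℚbar w := by
    refine linearIndependent_qbar h g (fun σ hσ => (hg σ hσ).2) w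
      (fun i => hwe _ (B i).2) ?_
    exact B.linearIndependent.map' (Subalgebra.toSubmodule S).subtype (Submodule.ker_subtype _)
  have hrep : ∀ f ∈ S, ∃ c : Fin _ → Rfix A H, f = ∑ i, c i • w i := fun f hf =>
    ⟨fun i => B.repr ⟨f, hf⟩ i, by
      have := congrArg Subtype.val (B.sum_repr ⟨f, hf⟩)
      simp only [Submodule.coe_sum, Submodule.coe_smul] at this
      exact this.symm⟩
  -- so the coefficients of `F` over `A` are unique, hence fixed by `H`
  obtain ⟨c, hc⟩ : ∃ c : Fin _ → A, F = ∑ i, c i • w i := by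
    clear hFe
    induction hF using Submodule.span_induction with
    | mem f hf =>
      obtain ⟨c, hc⟩ := hrep f hf
      exact ⟨fun i => ⟨_, (c i).2.1⟩, hc⟩
    | zero => exact ⟨0, by simp⟩
    | add u v _ _ hu hv =>
      obtain ⟨c, rfl⟩ := hu
      obtain ⟨c', rfl⟩ := hv
      exact ⟨c + c', by simp [add_smul, Finset.sum_add_distrib]⟩
    | smul r u _ hu =>
      obtain ⟨c, rfl⟩ := hu
      exact ⟨r • c, by simp [Finset.smul_sum, smul_smul]⟩
  have hfix : ∀ i, ∀ σ ∈ H, σ (c i : ℚbar) = c i := by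
    intro i σ hσ
    refine sub_eq_zero.mp (Fintype.linearIndependent_iff.mp hli
      (fun j => σ (c j : ℚbar) - c j) ?_ i)
    funext x
    obtain ⟨y, rfl⟩ := (hg σ hσ).2 x
    have h1 := congrFun hc y
    have h2 := congrFun hc (g σ y)
    rw [hFe σ hσ, h1] at h2
    simp only [Finset.sum_apply, Pi.smul_apply, map_sum] at h2
    simp only [Finset.sum_apply, Pi.smul_apply, Pi.zero_apply, smul_eq_mul, sub_mul,
      Finset.sum_sub_distrib, sub_eq_zero]
    refine Eq.trans (Finset.sum_congr rfl fun j _ => ?_) h2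
    rw [Algebra.smul_def, map_mul, show w j (g σ y) = σ (w j y) from hwe _ (B j).2 σ hσ y]
    rfl
  rw [hc]
  refine sum_mem fun i _ => ?_
  exact S.smul_mem (B i).2 ⟨(c i : ℚbar), (c i).2, hfix i⟩

/-- Functions of two variables that decompose in an algebra. -/
def Decomposes {R : Type*} [CommRing R] [Algebra R ℚbar] {N : Type*}
    (O : Subalgebra R (N → ℚbar)) (F : N × N → ℚbar) : Prop :=
  ∃ (n : ℕ) (a b : Fin n → N → ℚbar), (∀ i, a i ∈ O ∧ b i ∈ O) ∧
    ∀ x y, F (x, y) = ∑ i, a i x * b i y

/-- A polynomial in functions of either variable decomposes in the algebra. -/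
lemma decomposes_of_mem {R : Type*} [CommRing R] [Algebra R ℚbar] {N : Type*}
    {O : Subalgebra R (N → ℚbar)} {s : Set (N → ℚbar)} (hs : s ⊆ O) {F : N × N → ℚbar}
    (hF : F ∈ Algebra.adjoin R (((fun f => fun z : N × N => f z.1) '' s) ∪
      ((fun f => fun z : N × N => f z.2) '' s))) : Decomposes O F := by
  induction hF using Algebra.adjoin_induction with
  | mem F hF =>
    rcases hF with ⟨f, hf, rfl⟩ | ⟨f, hf, rfl⟩
    · exact ⟨1, ![f], ![1], fun i => by fin_cases i; exact ⟨hs hf, one_mem O⟩, fun x y => by simp⟩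
    · exact ⟨1, ![1], ![f], fun i => by fin_cases i; exact ⟨one_mem O, hs hf⟩, fun x y => by simp⟩
  | algebraMap r =>
    exact ⟨1, ![algebraMap R (N → ℚbar) r], ![1],
      fun i => by fin_cases i; exact ⟨O.algebraMap_mem r, one_mem O⟩, fun x y => by simp⟩
  | add F G _ _ hF hG =>
    obtain ⟨n, a, b, hab, e⟩ := hF
    obtain ⟨m, a', b', hab', e'⟩ := hG
    refine ⟨n + m, Fin.append a a', Fin.append b b', fun i => ?_, fun x y => ?_⟩
    · refine Fin.addCases (fun j => ?_) (fun j => ?_) i
      · simpa using hab j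
      · simpa using hab' j
    · rw [Pi.add_apply, e, e', Fin.sum_univ_add]
      simp
  | mul F G _ _ hF hG =>
    obtain ⟨n, a, b, hab, e⟩ := hF
    obtain ⟨m, a', b', hab', e'⟩ := hG
    refine ⟨n * m, fun i => a (finProdFinEquiv.symm i).1 * a' (finProdFinEquiv.symm i).2,
      fun i => b (finProdFinEquiv.symm i).1 * b' (finProdFinEquiv.symm i).2,
      fun i => ⟨mul_mem (hab _).1 (hab' _).1, mul_mem (hab _).2 (hab' _).2⟩, fun x y => ?_⟩
    rw [Pi.mul_apply, e, e', Finset.sum_mul_sum, ← Finset.sum_product',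
      ← finProdFinEquiv.sum_comp]
    simp [mul_mul_mul_comm]

end Fermat.FLAT.Curve
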