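import Fermat.Agent.FLAT.Curve.Model
import Fermat.Agent.FLAT.ToHopf
import Fermat.Agent.FLAT.FromFlat
import Fermat.Agent.FLAT.SS.Restrict

/-!
# Good reduction gives flatness in the sense of the prelude

* `nonempty_model_of_good`: models at every place over `p` of a finite Galois-stable subgroup.
* `isFlatAt_of_levels`: a representation whose finite levels are Galois-equivariant quotients of
  such subgroups satisfies `GaloisRepAdic.IsFlatAt`.

Both rest on `FLAT/Curve/Model`. Among the uses: the representations of curves with good reduction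
(`GR/CurveRep/Flat`) and the flat twists at three (`RM/Fundamental`).
-/

set_option autoImplicit false

noncomputable section

open Fermat.EC Fermat.EC.Val

namespace Fermat.FLAT

local notation "ℚbar" => AlgebraicClosure ℚ
local notation "Γℚ" => (AlgebraicClosure ℚ ≃ₐ[ℚ] AlgebraicClosure ℚ)

variable {p : ℕ} [hp : Fact p.Prime] (W : WeierstrassCurve ℤ)

/-- Models at every place over `p`, for every group between inertia and the whole Galois group. -/
theorem nonempty_model_of_good {A : ValuationSubring ℚbar} (h : IsPlace A p)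
    (hgood : ¬ (p : ℤ) ∣ W.Δ) (M : AddSubgroup (overQbar W).Point) [Finite M]
    (hM : ∀ σ : Γℚ, ∀ P ∈ M, σ • P ∈ M) {H : Subgroup Γℚ} (hH : A.inertiaSubgroupIn ℚ ≤ H) :
    Nonempty (Model A H (fun σ => Curve.galHom hM σ)) := by
  obtain ⟨G⟩ := Curve.nonempty_model_top W h hgood M hM
  exact G.nonempty_restrictH hH le_top

variable {A : Type} [CommRing A] [IsLocalRing A]

/-- Global models of all finite levels give the prelude's flatness. -/
theorem isFlatAt_of_models (ρ : GaloisRepAdic A) (hres : Finite (IsLocalRing.ResidueField A))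
    (hmod : ∀ (I : Ideal A), Finite (A ⧸ I) → ∃ (P : ValuationSubring ℚbar), IsPlace P p ∧
      Nonempty (Model P (⊤ : Subgroup Γℚ) (fun σ => levelHom ρ I σ))) : ρ.IsFlatAt p := by
  refine ⟨hres, fun I hI => ?_⟩
  have : Finite (ρ.V ⧸ (I • (⊤ : Submodule A ρ.V))) := by
    have : Module.Finite (A ⧸ I) (ρ.V ⧸ (I • (⊤ : Submodule A ρ.V))) :=
      Module.Finite.of_restrictScalars_finite A (A ⧸ I) _
    exact Module.finite_of_finite (A ⧸ I)
  obtain ⟨P, hP, ⟨G⟩⟩ := hmod I hI
  exact G.exists_hopf hP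

/-- If every finite level of `ρ` is a Galois-equivariant quotient of a finite stable subgroup of a
curve with good reduction at `p`, then `ρ` is flat at `p`. -/
theorem isFlatAt_of_levels (hgood : ¬ (p : ℤ) ∣ W.Δ) (ρ : GaloisRepAdic A)
    (hres : Finite (IsLocalRing.ResidueField A))
    (hlev : ∀ (I : Ideal A), Finite (A ⧸ I) →
      ∃ (M : AddSubgroup (overQbar W).Point) (_ : Finite M)
        (hM : ∀ σ : Γℚ, ∀ P ∈ M, σ • P ∈ M)
        (π : M →+ ρ.V ⧸ (I • (⊤ : Submodule A ρ.V))), Function.Surjective π ∧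
          ∀ (σ : Γℚ) (x : M), π (Curve.galHom hM σ x) = ρ.levelAction I σ (π x)) :
    ρ.IsFlatAt p := by
  refine isFlatAt_of_models ρ hres fun I hI => ?_
  obtain ⟨M, _, hM, π, hπ, hg⟩ := hlev I hI
  have : Finite (ρ.V ⧸ (I • (⊤ : Submodule A ρ.V))) := Finite.of_surjective π hπ
  obtain ⟨P, hP⟩ := Fermat.CFT.exists_place hp.out
  obtain ⟨G⟩ := Curve.nonempty_model_top W (A := P) ⟨hp.out, hP⟩ hgood M hM
  exact ⟨P, ⟨hp.out, hP⟩, ⟨G.quot ⟨hp.out, hP⟩ π hπ fun σ _ x => hg σ x⟩⟩

end Fermat.FLAT
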