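import Fermat.Agent.FLAT.Curve.Charts
import Fermat.Agent.RED.Model.X0Normal

/-!
# Finite subgroups of an elliptic curve with good reduction at `p` are flat at `p`

The projective coordinates form a single chart in the sense of `Curve/Charts`: the sum is given
locally by the chord formula, at pairs with the same reduction after translating by a constant
point of the place.
-/

set_option autoImplicit false

noncomputable section

open WeierstrassCurve IsLocalRing Fermat.EC Fermat.EC.Val
open scoped WeierstrassCurve.Projective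

namespace Fermat.FLAT.Curve

local notation "ℚbar" => AlgebraicClosure ℚ
local notation "Γℚ" => (AlgebraicClosure ℚ ≃ₐ[ℚ] AlgebraicClosure ℚ)

variable {p : ℕ} [hp : Fact p.Prime] {A : ValuationSubring ℚbar} {W : WeierstrassCurve ℤ}
  {M : AddSubgroup (overQbar W).Point}

/-- The Galois action on a stable subgroup. -/
def galHom (hM : ∀ σ : Γℚ, ∀ P ∈ M, σ • P ∈ M) : Γℚ →* AddMonoid.End M where
  toFun σ :=
    { toFun := fun P => ⟨σ • (P : (overQbar W).Point), hM σ P P.2⟩
      map_zero' := Subtype.ext (gal_smul_zero W σ)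
      map_add' := fun P Q => Subtype.ext (smul_add σ (P : (overQbar W).Point) Q) }
  map_one' := AddMonoidHom.ext fun P => Subtype.ext (one_smul Γℚ (P : (overQbar W).Point))
  map_mul' σ τ := AddMonoidHom.ext fun P =>
    Subtype.ext (mul_smul σ τ (P : (overQbar W).Point))

/-- The value of the Galois action. -/
@[simp] lemma galHom_coe (hM : ∀ σ : Γℚ, ∀ P ∈ M, σ • P ∈ M) (σ : Γℚ) (P : M) :
    ((galHom hM σ P : M) : (overQbar W).Point) = σ • (P : (overQbar W).Point) := rfl

/-- Standard coordinates are equivariant. -/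
lemma cvec_smul (σ : Γℚ) (P : (overQbar W).Point) :
    cvec (overP W) (σ • P) = fun k => σ (cvec (overP W) P k) := by
  cases P with
  | zero =>
    funext k
    change (![0, 1, 0] : Fin 3 → ℚbar) k = σ ((![0, 1, 0] : Fin 3 → ℚbar) k)
    fin_cases k <;> simp
  | some x y hns =>
    obtain ⟨h', e⟩ := smul_some W σ hns
    rw [e]
    funext k
    change (![σ x, σ y, 1] : Fin 3 → ℚbar) k = σ ((![x, y, 1] : Fin 3 → ℚbar) k)
    fin_cases k <;> simp

/-! ### Vectors of functions on pairs -/

section Pairs

variable {ι : Type*} {T : Subalgebra A (ι → A)}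

/-- A vector of functions representing a family of points away from its zeros. -/
def Good (W : WeierstrassCurve ℤ) (U : Fin 3 → T) (φ : ι → (overQbar W).Point) : Prop :=
  ∀ i, up (vec U i) = 0 ∨ Rep (overP W) (up (vec U i)) (φ i)

variable (W) in
/-- The chord formula on vectors of functions. -/
def addT (U V : Fin 3 → T) : Fin 3 → T :=
  (W.map (Int.castRingHom T)).toProjective.addXYZ U V

/-- The values of the chord formula on vectors of functions. -/
lemma vec_addT (U V : Fin 3 → T) (i : ι) :
    vec (addT W U V) i = (overA W A).addXYZ (vec U i) (vec V i) := by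
  let ev : T →+* A := (Pi.evalRingHom (fun _ : ι => A) i).comp (T.val : T →+* (ι → A))
  have h1 := Projective.map_addXYZ (W' := (W.map (Int.castRingHom T)).toProjective) ev U V
  have h2 : ((W.map (Int.castRingHom T)).map ev).toProjective = overA W A := by
    change (W.map _).map ev = W.map _
    rw [WeierstrassCurve.map_map, RingHom.ext_int (ev.comp (Int.castRingHom T))]
  rw [← h2]
  exact h1.symm

/-- The chord formula of good vectors is good for the sum. -/
lemma good_addT {U V : Fin 3 → T} {φ ψ : ι → (overQbar W).Point} (hU : Good W U φ)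
    (hV : Good W V ψ) : Good W (addT W U V) (fun i => φ i + ψ i) := by
  intro i
  rw [vec_addT, up_addXYZ]
  exact addXYZ_zero_or_rep (hU i) (hV i)

/-- The reduction of the chord formula. -/
lemma red_addT (U V : Fin 3 → T) (i : ι) :
    red (vec (addT W U V) i) = (overRes W A).addXYZ (red (vec U i)) (red (vec V i)) := by
  rw [vec_addT, red_addXYZ]

/-- A good vector primitive at a point represents its value there. -/
lemma rep_of_red_ne_zero {U : Fin 3 → T} {φ : ι → (overQbar W).Point} (hU : Good W U φ) {i : ι}
    (hr : red (vec U i) ≠ 0) : Rep (overP W) (up (vec U i)) (φ i) := by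
  refine (hU i).resolve_left fun h0 => hr (funext fun k => ?_)
  rw [red, show vec U i k = 0 from Subtype.ext (congrFun h0 k), map_zero]
  rfl

/-- Vectors proportional to the standard coordinates are good. -/
lemma good_of_line {U : Fin 3 → T} {φ : ι → (overQbar W).Point}
    (hU : ∀ i, ∃ l : ℚbar, up (vec U i) = l • cvec (overP W) (φ i)) : Good W U φ := by
  intro i
  obtain ⟨l, hl⟩ := hU i
  rw [hl]
  rcases eq_or_ne l 0 with rfl | h0
  · exact Or.inl (zero_smul ℚbar _)
  · exact Or.inr ((rep_cvec (E := overP W) (φ i)).smul h0)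

/-- Good vectors are proportional to the standard coordinates. -/
lemma Good.line {U : Fin 3 → T} {φ : ι → (overQbar W).Point} (hU : Good W U φ) (i : ι) :
    ∃ l : ℚbar, up (vec U i) = l • cvec (overP W) (φ i) := by
  rcases hU i with h0 | h0
  · exact ⟨0, h0.trans (zero_smul ℚbar _).symm⟩
  · obtain ⟨l, -, e⟩ := h0.exists_smul
    exact ⟨l, e⟩

end Pairs

omit hp in
/-- An integral abscissa lifts to a point with integral ordinate. -/
theorem exists_lift_nonsingular (hΔ0 : W.Δ ≠ 0) (a : A) :
    ∃ b : A, (overP W).Nonsingular (up ![a, b, 1]) := by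
  set P : Polynomial A := Polynomial.X ^ 2 + Polynomial.C ((W.a₁ : A) * a + W.a₃) * Polynomial.X -
    Polynomial.C (a ^ 3 + W.a₂ * a ^ 2 + W.a₄ * a + W.a₆) with hP
  have hPdeg : P.natDegree = 2 := by rw [hP]; compute_degree!
  have hPm : P.Monic := by rw [hP]; monicity!
  obtain ⟨y, hy⟩ := IsAlgClosed.exists_root (P.map A.subtype) (by
    rw [Polynomial.degree_map_eq_of_injective Subtype.val_injective,
      Polynomial.degree_eq_natDegree hPm.ne_zero, hPdeg]
    decide)
  rw [Polynomial.IsRoot.def, Polynomial.eval_map] at hy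
  obtain ⟨b, rfl⟩ := IsIntegrallyClosed.isIntegral_iff.mp (⟨P, hPm, hy⟩ : IsIntegral A y)
  have heq : (overP W).toAffine.Equation (a : ℚbar) (b : ℚbar) := by
    rw [Affine.equation_iff]
    have h1 : (algebraMap A ℚbar b : ℚbar) = (b : ℚbar) := rfl
    simp only [hP, Polynomial.eval₂_sub, Polynomial.eval₂_add, Polynomial.eval₂_mul,
      Polynomial.eval₂_X, Polynomial.eval₂_C, Polynomial.eval₂_X_pow, h1] at hy
    simp only [A.subtype_apply] at hy
    push_cast at hy
    simp only [overQbar_a₁, overQbar_a₂, overQbar_a₃, overQbar_a₄, overQbar_a₆]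
    linear_combination hy
  have hΔ : (overQbar W).Δ ≠ 0 := by
    rw [overQbar_Δ]
    exact_mod_cast hΔ0
  refine ⟨b, ?_⟩
  have : up ![a, b, 1] = ![(a : ℚbar), (b : ℚbar), 1] := by
    funext k
    fin_cases k <;> simp [up]
  rw [this, Projective.nonsingular_some]
  exact (Affine.equation_iff_nonsingular_of_Δ_ne_zero hΔ).mp heq

/-- A constant point of the place avoiding a given reduced abscissa and with reduction not killed
by two. -/
theorem exists_translation (h : IsPlace A p) (hgood : ¬ (p : ℤ) ∣ W.Δ) (s : ResidueField A) :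
    ∃ (r : Fin 3 → A) (R : (overQbar W).Point), Rep (overP W) (up r) R ∧
      (overRes W A).Nonsingular (red r) ∧ red r 2 = 1 ∧ red r 0 ≠ s ∧
      red r 1 ≠ (overRes W A).toAffine.negY (red r 0) (red r 1) := by
  classical
  have := Fermat.RED.Model.isAlgClosed_residue A
  -- lift an admissible residual abscissa; the ordinate is integral over the place
  obtain ⟨x₀, hxs, hx⟩ := exists_point_avoiding (Δ_overRes_ne_zero h hgood) s
  obtain ⟨a, rfl⟩ := residue_surjective (R := A) x₀
  set E := overP W
  obtain ⟨b, hns⟩ :=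
    exists_lift_nonsingular (W := W) (fun e => hgood (e ▸ dvd_zero _)) a
  have hr2 : red ![a, b, 1] 2 = 1 := by simp [red]
  have hrn : (overRes W A).Nonsingular (red ![a, b, 1]) :=
    nonsingular_red h hgood hns fun h0 => by simpa [hr2] using congrFun h0 2
  refine ⟨![a, b, 1], _, ⟨hns, rfl⟩, hrn, hr2, by simpa [red] using hxs, ?_⟩
  refine ne_negY_of_eval_ne_zero ?_ (by simpa [red] using hx)
  have h3 := hrn.left
  rw [Projective.equation_of_Z_ne_zero (by rw [hr2]; exact one_ne_zero), hr2,
    div_one, div_one] at h3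
  exact h3

/-- The sum is locally a vector of functions. -/
theorem hasVec_add (h : IsPlace A p) (hgood : ¬ (p : ℤ) ∣ W.Δ) {T : Subalgebra A (M × M → A)}
    (h1 : ∀ z₀, HasVec T (fun z : M × M => cvec (overP W) (z.1 : (overQbar W).Point)) z₀)
    (h2 : ∀ z₀, HasVec T (fun z : M × M => cvec (overP W) (z.2 : (overQbar W).Point)) z₀)
    (z₀ : M × M) :
    HasVec T (fun z : M × M => cvec (overP W) ((z.1 + z.2 : M) : (overQbar W).Point)) z₀ := by
  classical
  obtain ⟨U, hU', hUr⟩ := h1 z₀
  obtain ⟨V, hV', hVr⟩ := h2 z₀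
  have hU := good_of_line (φ := fun z : M × M => (z.1 : (overQbar W).Point)) hU'
  have hV := good_of_line (φ := fun z : M × M => (z.2 : (overQbar W).Point)) hV'
  suffices ∃ U : Fin 3 → T,
      Good W U (fun z => ((z.1 + z.2 : M) : (overQbar W).Point)) ∧ red (vec U z₀) ≠ 0 by
    obtain ⟨S, hS, hSr⟩ := this
    exact ⟨S, hS.line, hSr⟩
  clear hU' hV'
  set u := red (vec U z₀) with hu
  set v := red (vec V z₀) with hv
  have hun : (overRes W A).Nonsingular u :=
    nonsingular_red h hgood (rep_of_red_ne_zero hU hUr).1 hUr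
  have hvn : (overRes W A).Nonsingular v :=
    nonsingular_red h hgood (rep_of_red_ne_zero hV hVr).1 hVr
  by_cases huv : u ≈ v
  swap
  · refine ⟨addT W U V, fun z => good_addT hU hV z, ?_⟩
    rw [red_addT]
    exact addXYZ_ne_zero hun hvn huv
  obtain ⟨r, R, hr, hrn, hr2, hrs, hry⟩ := exists_translation h hgood (u 0 / u 2)
  have hr' : Rep (overP W) (up ((overA W A).neg r)) (-R) :=
    ⟨(up_neg r).symm ▸ Projective.nonsingular_neg hr.1,
      by rw [up_neg, Projective.Point.toAffine_neg hr.1, hr.2]⟩
  have hrn' : (overRes W A).Nonsingular ((overRes W A).neg (red r)) :=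
    Projective.nonsingular_neg hrn
  -- the translating point differs from both reduced points
  have hne : ∀ w : Fin 3 → ResidueField A, w 2 = 1 → w 0 = red r 0 → ¬ u ≈ w := by
    intro w hw2 hw0 hw
    obtain ⟨c, hc⟩ := hw
    apply hrs
    have e0 : (c : ResidueField A) * w 0 = u 0 := congrFun hc 0
    have e2 : (c : ResidueField A) * w 2 = u 2 := congrFun hc 2
    rw [hw2, mul_one] at e2
    rw [← e0, ← e2, hw0, mul_div_cancel_left₀ _ c.ne_zero]
  have h1 : ¬ u ≈ red r := hne _ hr2 rfl
  have h2 : ¬ v ≈ (overRes W A).neg (red r) := fun e =>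
    hne ((overRes W A).neg (red r)) hr2 rfl (Setoid.trans huv e)
  set U' := addT W U (constVec (T) r)
  set V' := addT W V (constVec (T) ((overA W A).neg r))
  have hU'r : red (vec U' z₀) = (overRes W A).addXYZ u (red r) := by
    rw [red_addT, vec_constVec]
  have hV'r : red (vec V' z₀) = (overRes W A).addXYZ v ((overRes W A).neg (red r)) := by
    rw [red_addT, vec_constVec, red_neg]
  refine ⟨addT W U' V', fun z => ?_, ?_⟩
  · have hU' : Good W U' (fun z => (z.1 : (overQbar W).Point) + R) :=
      good_addT hU fun _ => Or.inr hr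
    have hV' : Good W V' (fun z => (z.2 : (overQbar W).Point) + -R) :=
      good_addT hV fun _ => Or.inr hr'
    have := good_addT hU' hV' z
    convert this using 3
    simp only [AddSubgroup.coe_add]
    abel
  rw [red_addT, hU'r, hV'r]
  rw [← Projective.add_of_not_equiv h1, ← Projective.add_of_not_equiv h2]
  refine addXYZ_ne_zero (Projective.nonsingular_add hun hrn)
    (Projective.nonsingular_add hvn hrn') fun e => hry ?_
  have e' := Projective.Point.toAffine_of_equiv (W := overRes W A) e
  rw [Projective.Point.toAffine_add hun hrn, Projective.Point.toAffine_add hvn hrn',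
    Projective.Point.toAffine_of_equiv huv, Projective.Point.toAffine_neg hrn, add_right_inj,
    Projective.Point.toAffine_of_Z_ne_zero hrn (by rw [hr2]; exact one_ne_zero),
    Affine.Point.neg_some, Affine.Point.some.injEq, hr2, div_one, div_one] at e'
  exact e'.2

/-- **Finite Galois-stable subgroups of a curve with good reduction have models over `ℤ_(p)`.** -/
theorem nonempty_model_top (W : WeierstrassCurve ℤ) (h : IsPlace A p)
    (hgood : ¬ (p : ℤ) ∣ W.Δ) (M : AddSubgroup (overQbar W).Point) [Finite M]
    (hM : ∀ σ : Γℚ, ∀ P ∈ M, σ • P ∈ M) :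
    Nonempty (Model A (⊤ : Subgroup Γℚ) (fun σ => galHom hM σ)) := by
  classical
  refine nonempty_model_of_charts (g := galHom hM) h
    (fun (_ : Unit) (P : M) => cvec (overP W) (P : (overQbar W).Point))
    (fun _ P => ne_zero_of_nonsingular (rep_cvec (E := overP W) (P : (overQbar W).Point)).1)
    (fun _ σ P => by rw [galHom_coe, cvec_smul]) (t₀ := ()) (fun P Q hl => ?_)
    fun T h1 h2 _ z₀ => hasVec_add h hgood (fun z => h1 () z) (fun z => h2 () z) z₀
  obtain ⟨l, hl⟩ := hl
  refine Subtype.ext ?_
  have hP := rep_cvec (E := overP W) (P : (overQbar W).Point)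
  have hQ := rep_cvec (E := overP W) (Q : (overQbar W).Point)
  rcases eq_or_ne l 0 with rfl | h0
  · exact absurd (hl.trans (zero_smul ℚbar _)) (ne_zero_of_nonsingular hP.1)
  · rw [← hP.2, hl]
    exact (hQ.smul h0).2

end Fermat.FLAT.Curve
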