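import Fermat.Agent.FLAT.Curve.Model

/-!
# Scaled coordinates at a node, and chord formulas between components

At scale `s` a point `(x, y)` has coordinates `(x : y : p ^ s)`. The chord with a point
`(p ^ s X, p ^ s Y)` gives, by polynomial formulas, a map from scale `s` to scale `0` and one from
scale `0` to scale `s`; both are exact up to a scalar at every point, possibly zero.
-/

set_option autoImplicit false

noncomputable section

open WeierstrassCurve Fermat.EC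

namespace Fermat.FLAT.Curve

local notation "ℚbar" => AlgebraicClosure ℚ

section Formulas

variable {R S : Type*} [CommRing R] [CommRing S] (W : WeierstrassCurve ℤ)

/-- From scale `s` (with `ω = p ^ s`) to scale `0`: the chord with `(ω X₂, ω Y₂)`. -/
def downVec (ω X₂ Y₂ : R) (v : Fin 3 → R) : Fin 3 → R :=
  let D := v 0 - X₂ * v 2
  let N := v 1 - Y₂ * v 2
  let H := v 2 * N ^ 2 + (W.a₁ : R) * v 2 * N * D
    - ((W.a₂ : R) * v 2 + ω * v 0 + ω * X₂ * v 2) * D ^ 2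
  ![D * H, -(N * (H - ω * X₂ * v 2 * D ^ 2) + ω * Y₂ * v 2 * D ^ 3) - (W.a₁ : R) * (D * H)
      - (W.a₃ : R) * v 2 * D ^ 3, v 2 * D ^ 3]

/-- From scale `0` to scale `s`, where `a₃ = ω b₃`, `a₄ = ω b₄`, `a₆ = ω b₆`. -/
def upVec (ω X₂ Y₂ b₃ b₄ b₆ : R) (v : Fin 3 → R) : Fin 3 → R :=
  let D := v 0 - ω * X₂ * v 2
  let N := v 1 - ω * Y₂ * v 2
  let G := -b₃ * v 1 * v 2 ^ 2 + b₄ * v 0 * v 2 ^ 2 + b₆ * v 2 ^ 3
    + v 2 ^ 2 * (-2 * Y₂ * v 1 - (W.a₁ : R) * (X₂ * v 1 + Y₂ * v 0) + 2 * (W.a₂ : R) * X₂ * v 0)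
    + X₂ * v 0 ^ 2 * v 2 + ω * X₂ ^ 2 * v 0 * v 2 ^ 2
    + v 2 ^ 3 * (-(W.a₃ : R) * Y₂ + (W.a₄ : R) * X₂ + b₆)
  ![G * D, -(N * (G - X₂ * v 2 * D ^ 2) + Y₂ * v 2 * D ^ 3) - (W.a₁ : R) * (G * D)
      - b₃ * v 2 * D ^ 3, v 2 * D ^ 3]

/-- Ring maps commute with `downVec`. -/
lemma map_downVec (f : R →+* S) (ω X₂ Y₂ : R) (v : Fin 3 → R) :
    (fun k => f (downVec W ω X₂ Y₂ v k)) = downVec W (f ω) (f X₂) (f Y₂) fun k => f (v k) := by
  funext k
  fin_cases k <;> simp [downVec]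

/-- Ring maps commute with `upVec`. -/
lemma map_upVec (f : R →+* S) (ω X₂ Y₂ b₃ b₄ b₆ : R) (v : Fin 3 → R) :
    (fun k => f (upVec W ω X₂ Y₂ b₃ b₄ b₆ v k))
      = upVec W (f ω) (f X₂) (f Y₂) (f b₃) (f b₄) (f b₆) fun k => f (v k) := by
  funext k
  fin_cases k <;> simp [upVec, map_ofNat]

/-- `downVec` is homogeneous of degree `4`. -/
lemma downVec_smul (ω X₂ Y₂ : R) (l : R) (v : Fin 3 → R) :
    downVec W ω X₂ Y₂ (l • v) = l ^ 4 • downVec W ω X₂ Y₂ v := by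
  funext k
  fin_cases k <;> simp [downVec] <;> ring

/-- `upVec` is homogeneous of degree `4`. -/
lemma upVec_smul (ω X₂ Y₂ b₃ b₄ b₆ : R) (l : R) (v : Fin 3 → R) :
    upVec W ω X₂ Y₂ b₃ b₄ b₆ (l • v) = l ^ 4 • upVec W ω X₂ Y₂ b₃ b₄ b₆ v := by
  funext k
  fin_cases k <;> simp [upVec] <;> ring

/-- The coordinates at scale `s`. -/
def scaleVec (ω : R) (v : Fin 3 → R) : Fin 3 → R := ![v 0, v 1, ω * v 2]

/-- Scaling is linear. -/
lemma scaleVec_smul (ω l : R) (v : Fin 3 → R) : scaleVec ω (l • v) = l • scaleVec ω v := by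
  funext k
  fin_cases k <;> simp [scaleVec, mul_left_comm]

/-- Scale `1` changes nothing. -/
lemma scaleVec_one (v : Fin 3 → R) : scaleVec (1 : R) v = v := by
  funext k
  fin_cases k <;> simp [scaleVec]

end Formulas

section Exact

variable (W : WeierstrassCurve ℤ)

/-- `v` is on the line of the coordinates of `P` at the given scale. -/
def OnLine (ω : ℚbar) (v : Fin 3 → ℚbar) (P : (overQbar W).Point) : Prop :=
  ∃ l : ℚbar, v = l • scaleVec ω (cvec (overP W) P)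

/-- Multiples stay on the line. -/
lemma OnLine.smul {ω : ℚbar} {v : Fin 3 → ℚbar} {P : (overQbar W).Point} (h : OnLine W ω v P)
    (u : ℚbar) : OnLine W ω (u • v) P := by
  obtain ⟨l, rfl⟩ := h
  exact ⟨u * l, by rw [smul_smul]⟩

/-- The coordinates of the origin. -/
lemma cvec_zero : cvec (overP W) (0 : (overQbar W).Point) = ![0, 1, 0] := rfl

/-- The coordinates of an affine point. -/
lemma cvec_some {x y : ℚbar} (hn : (overQbar W).Nonsingular x y) :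
    cvec (overP W) (Affine.Point.some x y hn) = ![x, y, 1] := rfl

/-- The equation of the curve with integral coefficients. -/
lemma equation_int {x y : ℚbar} (hn : (overQbar W).Equation x y) :
    y ^ 2 + (W.a₁ : ℚbar) * x * y + (W.a₃ : ℚbar) * y
      = x ^ 3 + (W.a₂ : ℚbar) * x ^ 2 + (W.a₄ : ℚbar) * x + (W.a₆ : ℚbar) := by
  rw [Affine.equation_iff] at hn
  simpa only [overQbar_a₁, overQbar_a₂, overQbar_a₃, overQbar_a₄, overQbar_a₆] using hn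

open scoped Classical in
/-- The sum of two affine points, by cases. -/
lemma add_cases {x₁ y₁ x₂ y₂ : ℚbar} (h₁ : (overQbar W).Nonsingular x₁ y₁)
    (h₂ : (overQbar W).Nonsingular x₂ y₂) :
    (x₁ = x₂ ∧ y₁ = y₂) ∨
    (x₁ = x₂ ∧ y₁ ≠ y₂ ∧ (Affine.Point.some x₁ y₁ h₁ + Affine.Point.some x₂ y₂ h₂
      : (overQbar W).Point) = 0) ∨
    (x₁ ≠ x₂ ∧ ∃ (x₃ y₃ : ℚbar) (h₃ : (overQbar W).Nonsingular x₃ y₃),
      (Affine.Point.some x₁ y₁ h₁ + Affine.Point.some x₂ y₂ h₂ : (overQbar W).Point)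
        = Affine.Point.some x₃ y₃ h₃ ∧
      x₃ * (x₁ - x₂) ^ 2 = (y₁ - y₂) ^ 2 + (W.a₁ : ℚbar) * (y₁ - y₂) * (x₁ - x₂)
        - ((W.a₂ : ℚbar) + x₁ + x₂) * (x₁ - x₂) ^ 2 ∧
      y₃ * (x₁ - x₂) = -((y₁ - y₂) * (x₃ - x₂) + y₂ * (x₁ - x₂))
        - ((W.a₁ : ℚbar) * x₃ + (W.a₃ : ℚbar)) * (x₁ - x₂)) := by
  by_cases hx : x₁ = x₂
  · by_cases hy : y₁ = y₂
    · exact Or.inl ⟨hx, hy⟩
    refine Or.inr (Or.inl ⟨hx, hy, ?_⟩)
    exact Affine.Point.add_of_Y_eq hx ((Affine.Y_eq_of_X_eq h₁.1 h₂.1 hx).resolve_left hy)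
  refine Or.inr (Or.inr ⟨hx, ?_⟩)
  rw [Affine.Point.add_of_X_ne (h₁ := h₁) (h₂ := h₂) hx]
  refine ⟨_, _, _, rfl, ?_, ?_⟩
  · simp only [Affine.addX, Affine.slope_of_X_ne hx, overQbar_a₁, overQbar_a₂]
    field_simp [sub_ne_zero.mpr hx]
    ring
  · simp only [Affine.addY, Affine.negAddY, Affine.addX, Affine.negY, Affine.slope_of_X_ne hx,
      overQbar_a₁, overQbar_a₂, overQbar_a₃]
    field_simp [sub_ne_zero.mpr hx]
    ring

/-- `downVec` computes the translate. -/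
theorem onLine_downVec {ω X₂ Y₂ : ℚbar} (h₂ : (overQbar W).Nonsingular (ω * X₂) (ω * Y₂))
    {v : Fin 3 → ℚbar} {P : (overQbar W).Point} (hv : OnLine W ω v P) :
    OnLine W 1 (downVec W ω X₂ Y₂ v) (P + Affine.Point.some _ _ h₂) := by
  obtain ⟨l, rfl⟩ := hv
  rw [downVec_smul]
  refine OnLine.smul W ?_ _
  cases P with
  | zero =>
    refine ⟨0, ?_⟩
    rw [zero_smul]
    funext k
    change downVec W ω X₂ Y₂ (scaleVec ω ![0, 1, 0]) k = 0
    fin_cases k <;> simp [downVec, scaleVec]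
  | some x y h₁ =>
    rw [cvec_some]
    set w : Fin 3 → ℚbar := scaleVec ω ![x, y, 1] with hw
    have w0 : w 0 = x := by simp [hw, scaleVec]
    have w1 : w 1 = y := by simp [hw, scaleVec]
    have w2 : w 2 = ω := by simp [hw, scaleVec]
    rcases add_cases W h₁ h₂ with ⟨hx, hy⟩ | ⟨hx, hy, he⟩ | ⟨hx, x₃, y₃, h₃, he, ex, ey⟩
    · refine ⟨0, ?_⟩
      rw [zero_smul]
      funext k
      fin_cases k <;> simp [downVec, w0, w1, w2, hx, hy, mul_comm X₂ ω, mul_comm Y₂ ω]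
    · refine ⟨-(ω * (y - ω * Y₂) ^ 3), ?_⟩
      rw [he, scaleVec_one, cvec_zero]
      funext k
      fin_cases k <;> simp [downVec, w0, w1, w2, hx, mul_comm X₂ ω, mul_comm Y₂ ω]; ring
    · refine ⟨ω * (x - ω * X₂) ^ 3, ?_⟩
      rw [he, scaleVec_one, cvec_some]
      funext k
      fin_cases k <;> simp [downVec, w0, w1, w2, mul_comm X₂ ω, mul_comm Y₂ ω]
      · linear_combination (-(ω * (x - ω * X₂))) * ex
      · linear_combination (ω * (y - ω * Y₂) + ω * (W.a₁ : ℚbar) * (x - ω * X₂)) * ex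
          - ω * (x - ω * X₂) ^ 2 * ey

/-- `upVec` computes the translate, at scale `s`. -/
theorem onLine_upVec {ω X₂ Y₂ b₃ b₄ b₆ : ℚbar}
    (h₂ : (overQbar W).Nonsingular (ω * X₂) (ω * Y₂)) (hω : ω ≠ 0)
    (e₃ : (W.a₃ : ℚbar) = ω * b₃) (e₄ : (W.a₄ : ℚbar) = ω * b₄) (e₆ : (W.a₆ : ℚbar) = ω * b₆)
    {v : Fin 3 → ℚbar} {P : (overQbar W).Point} (hv : OnLine W 1 v P) :
    OnLine W ω (upVec W ω X₂ Y₂ b₃ b₄ b₆ v) (P + Affine.Point.some _ _ h₂) := by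
  obtain ⟨l, rfl⟩ := hv
  rw [scaleVec_one, upVec_smul]
  refine OnLine.smul W ?_ _
  cases P with
  | zero =>
    refine ⟨0, ?_⟩
    rw [zero_smul]
    funext k
    change upVec W ω X₂ Y₂ b₃ b₄ b₆ ![0, 1, 0] k = 0
    fin_cases k <;> simp [upVec]
  | some x y h₁ =>
    rw [cvec_some]
    set w : Fin 3 → ℚbar := ![x, y, 1] with hw
    have w0 : w 0 = x := by simp [hw]
    have w1 : w 1 = y := by simp [hw]
    have w2 : w 2 = 1 := by simp [hw]
    -- `ω G` is the chord quantity `N² + a₁ N D - (a₂ + x + ω X₂) D²`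
    have hG : ω * (-b₃ * y + b₄ * x + b₆
        + (-2 * Y₂ * y - (W.a₁ : ℚbar) * (X₂ * y + Y₂ * x) + 2 * (W.a₂ : ℚbar) * X₂ * x)
        + X₂ * x ^ 2 + ω * X₂ ^ 2 * x
        + (-(W.a₃ : ℚbar) * Y₂ + (W.a₄ : ℚbar) * X₂ + b₆))
        = (y - ω * Y₂) ^ 2 + (W.a₁ : ℚbar) * (y - ω * Y₂) * (x - ω * X₂)
          - ((W.a₂ : ℚbar) + x + ω * X₂) * (x - ω * X₂) ^ 2 := by
      linear_combination (-1 : ℚbar) * equation_int W h₁.1 - equation_int W h₂.1 + y * e₃ - x * e₄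
        - 2 * e₆
    set G := -b₃ * y + b₄ * x + b₆
        + (-2 * Y₂ * y - (W.a₁ : ℚbar) * (X₂ * y + Y₂ * x) + 2 * (W.a₂ : ℚbar) * X₂ * x)
        + X₂ * x ^ 2 + ω * X₂ ^ 2 * x
        + (-(W.a₃ : ℚbar) * Y₂ + (W.a₄ : ℚbar) * X₂ + b₆) with hGdef
    have eV : upVec W ω X₂ Y₂ b₃ b₄ b₆ w = ![G * (x - ω * X₂),
        -((y - ω * Y₂) * (G - X₂ * (x - ω * X₂) ^ 2) + Y₂ * (x - ω * X₂) ^ 3)
          - (W.a₁ : ℚbar) * (G * (x - ω * X₂)) - b₃ * (x - ω * X₂) ^ 3, (x - ω * X₂) ^ 3] := by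
      funext k
      fin_cases k <;> simp [upVec, w0, w1, w2, hGdef]
    rw [eV]
    clear_value G
    -- the three cases of the chord
    rcases add_cases W h₁ h₂ with ⟨hx, hy⟩ | ⟨hx, hy, he⟩ | ⟨hx, x₃, y₃, h₃, he, ex, ey⟩
    · refine ⟨0, ?_⟩
      rw [zero_smul]
      funext k
      fin_cases k <;> simp [hx, hy]
    · refine ⟨-((y - ω * Y₂) * G), ?_⟩
      rw [he, cvec_zero]
      funext k
      fin_cases k <;> simp [scaleVec, hx]
    · refine ⟨(x - ω * X₂) ^ 3 / ω, ?_⟩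
      rw [he, cvec_some]
      funext k
      fin_cases k <;> simp [scaleVec]
      · rw [div_mul_eq_mul_div, eq_div_iff hω]
        linear_combination (x - ω * X₂) * hG - (x - ω * X₂) * ex
      · rw [div_mul_eq_mul_div, eq_div_iff hω]
        linear_combination -((y - ω * Y₂) + (W.a₁ : ℚbar) * (x - ω * X₂)) * (hG - ex)
          - (x - ω * X₂) ^ 2 * ey + (x - ω * X₂) ^ 3 * e₃
      · rw [div_mul_cancel₀ _ hω]

end Exact

end Fermat.FLAT.Curve
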