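import Fermat.Agent.FLAT.Curve.Nodal

/-!
# Subgroups meeting the components of a nodal fibre at integral scales are flat

The charts are `(x : y : p ^ t)`. At a pair of points the sum is computed by moving both points to
generic smooth points of the special fibre, adding there and moving back, all by constant
translates.
-/

set_option autoImplicit false
set_option linter.unusedSectionVars false

noncomputable section

open WeierstrassCurve IsLocalRing Fermat.EC Fermat.EC.Val
open scoped WeierstrassCurve.Projective Classical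

namespace Fermat.FLAT.Curve

local notation "ℚbar" => AlgebraicClosure ℚ
local notation "Γℚ" => (AlgebraicClosure ℚ ≃ₐ[ℚ] AlgebraicClosure ℚ)

/-- The model has a node at the origin modulo `p`. -/
structure NodeAt (W : WeierstrassCurve ℤ) (p : ℕ) : Prop where
  /-- `p` divides `a₃`. -/
  a₃ : (p : ℤ) ∣ W.a₃
  /-- `p` divides `a₄`. -/
  a₄ : (p : ℤ) ∣ W.a₄
  /-- `p` divides `a₆`. -/
  a₆ : (p : ℤ) ∣ W.a₆
  /-- `p` does not divide `b₂`: the singular point modulo `p` is a node. -/
  b₂ : ¬ (p : ℤ) ∣ W.b₂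
  /-- The generic fibre is smooth. -/
  Δ : W.Δ ≠ 0

/-- The scale `s` is below the depth of the node. -/
def IsScale (W : WeierstrassCurve ℤ) (p s : ℕ) : Prop :=
  (p : ℤ) ^ (s + 1) ∣ W.a₃ ∧ (p : ℤ) ^ (s + 1) ∣ W.a₄ ∧ (p : ℤ) ^ (2 * s + 1) ∣ W.a₆

variable {p : ℕ} [hp : Fact p.Prime] {A : ValuationSubring ℚbar} {W : WeierstrassCurve ℤ}

/-- Points of the smooth locus of the special fibre. -/
abbrev RedPoint (W : WeierstrassCurve ℤ) (A : ValuationSubring ℚbar) :=
  (overRes W A).toAffine.Point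

section Residual

variable (h : IsPlace A p) (hN : NodeAt W p)
include h hN

omit hN in
/-- Multiples of `p` vanish in the residue field. -/
lemma intCast_residue_eq_zero {a : ℤ} (ha : (p : ℤ) ∣ a) : (a : ResidueField A) = 0 := by
  obtain ⟨b, rfl⟩ := ha
  push_cast
  rw [natCast_residue_eq_zero h, zero_mul]

omit hN in
/-- Integers prime to `p` do not vanish in the residue field. -/
lemma intCast_residue_ne_zero {a : ℤ} (ha : ¬ (p : ℤ) ∣ a) : (a : ResidueField A) ≠ 0 := by
  have := charP_residue h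
  rwa [Ne, CharP.intCast_eq_zero_iff _ p]

/-- The special fibre is the nodal cubic `y² + a₁ x y = x³ + a₂ x²`. -/
lemma red_equation_iff {x y : ResidueField A} :
    (overRes W A).toAffine.Equation x y ↔
      y ^ 2 + (W.a₁ : ResidueField A) * x * y = x ^ 3 + (W.a₂ : ResidueField A) * x ^ 2 := by
  rw [Affine.equation_iff]
  simp only [WeierstrassCurve.map_a₁, WeierstrassCurve.map_a₂, WeierstrassCurve.map_a₃,
    WeierstrassCurve.map_a₄, WeierstrassCurve.map_a₆, eq_intCast,
    intCast_residue_eq_zero h hN.a₃, intCast_residue_eq_zero h hN.a₄,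
    intCast_residue_eq_zero h hN.a₆, zero_mul, add_zero]

/-- The special fibre is smooth outside `x = 0`. -/
lemma red_nonsingular_of_x_ne_zero {x y : ResidueField A}
    (he : (overRes W A).toAffine.Equation x y) (hx : x ≠ 0) :
    (overRes W A).toAffine.Nonsingular x y := by
  rw [Affine.nonsingular_iff]
  refine ⟨he, ?_⟩
  by_contra hc
  push Not at hc
  obtain ⟨h1, h2⟩ := hc
  rw [red_equation_iff h hN] at he
  simp only [WeierstrassCurve.map_a₁, WeierstrassCurve.map_a₂, WeierstrassCurve.map_a₃,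
    WeierstrassCurve.map_a₄, eq_intCast, intCast_residue_eq_zero h hN.a₃,
    intCast_residue_eq_zero h hN.a₄] at h1 h2
  apply hx
  refine pow_eq_zero_iff three_ne_zero |>.mp ?_
  linear_combination (2 : ResidueField A) * he - y * h2 - x * h1

/-- Smooth affine points of the special fibre have nonzero abscissa. -/
lemma red_x_ne_zero {v : Fin 3 → ResidueField A} (hv : (overRes W A).Nonsingular v)
    (hz : v 2 ≠ 0) : v 0 ≠ 0 := by
  intro hx
  have h1 := (Projective.nonsingular_of_Z_ne_zero hz).mp hv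
  rw [Affine.nonsingular_iff] at h1
  obtain ⟨h1, h2⟩ := h1
  rw [red_equation_iff h hN, hx, zero_div] at h1
  have hy : v 1 / v 2 = 0 := pow_eq_zero_iff two_ne_zero |>.mp (by linear_combination h1)
  simp [hx, hy, intCast_residue_eq_zero h hN.a₃, intCast_residue_eq_zero h hN.a₄] at h2

/-- The two-division polynomial of the special fibre is nonzero. -/
lemma Ψ₂Sq_overRes_ne_zero : WeierstrassCurve.Ψ₂Sq (overRes W A) ≠ 0 := by
  intro h0
  have h2 : WeierstrassCurve.b₂ (overRes W A) = 0 := by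
    have := congrArg (fun f => Polynomial.coeff f 2) h0
    simp only [WeierstrassCurve.Ψ₂Sq, Polynomial.coeff_add, Polynomial.coeff_C_mul,
      Polynomial.coeff_X_pow, Polynomial.coeff_X, Polynomial.coeff_C, Polynomial.coeff_zero] at this
    simpa using this
  rw [WeierstrassCurve.map_b₂, eq_intCast] at h2
  exact intCast_residue_ne_zero h hN.b₂ h2

end Residual

section Near

variable {ι : Type*} {T : Subalgebra A (ι → A)} {φ ψ : ι → (overQbar W).Point} {i₀ : ι}

/-- Near `i₀` the family is a vector of functions reducing to the smooth point `Q`. -/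
def NearSmooth (T : Subalgebra A (ι → A)) (φ : ι → (overQbar W).Point) (i₀ : ι) (Q : RedPoint W A) :
    Prop :=
  ∃ U : Fin 3 → T, Good W U φ ∧ Rep (overRes W A) (red (vec U i₀)) Q

/-- A point with the given reduction. -/
def Lifts (R : (overQbar W).Point) (Q : RedPoint W A) : Prop :=
  ∃ r : Fin 3 → A, Rep (overP W) (up r) R ∧ Rep (overRes W A) (red r) Q

/-- Near `i₀` the family is a vector of functions at scale `s`, affine at `i₀`. -/
def NearScale (p s : ℕ) (T : Subalgebra A (ι → A)) (φ : ι → (overQbar W).Point) (i₀ : ι) : Prop :=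
  ∃ U : Fin 3 → T, (∀ i, OnLine W ((p : ℚbar) ^ s) (up (vec U i)) (φ i)) ∧ red (vec U i₀) 2 ≠ 0

/-- An affine point with integral coordinates at scale `s`. -/
def IntScale (A : ValuationSubring ℚbar) (p s : ℕ) (R : (overQbar W).Point) : Prop :=
  ∃ (X Y : A) (hn : (overQbar W).Nonsingular ((p : ℚbar) ^ s * X) ((p : ℚbar) ^ s * Y)),
    R = Affine.Point.some _ _ hn

/-- A lift gives a constant family near its reduction. -/
lemma Lifts.near {R : (overQbar W).Point} {Q : RedPoint W A} (hR : Lifts R Q) :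
    NearSmooth T (fun _ => R) i₀ Q := by
  obtain ⟨r, hr, hrr⟩ := hR
  exact ⟨constVec T r, fun _ => Or.inr hr, hrr⟩

/-- Families near distinct smooth points add. -/
theorem NearSmooth.add {Q Q' : RedPoint W A} (hU : NearSmooth T φ i₀ Q)
    (hV : NearSmooth T ψ i₀ Q') (hne : Q ≠ Q') :
    NearSmooth T (fun i => φ i + ψ i) i₀ (Q + Q') := by
  obtain ⟨U, hU, hUr⟩ := hU
  obtain ⟨V, hV, hVr⟩ := hV
  have he : ¬ red (vec U i₀) ≈ red (vec V i₀) := fun e =>
    hne (hUr.2.symm.trans ((Projective.Point.toAffine_of_equiv e).trans hVr.2))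
  refine ⟨addT W U V, good_addT hU hV, ?_⟩
  rw [red_addT, ← Projective.add_of_not_equiv he]
  exact ⟨Projective.nonsingular_add hUr.1 hVr.1, by
    rw [Projective.Point.toAffine_add hUr.1 hVr.1, hUr.2, hVr.2]⟩

/-- Nearness only depends on the family. -/
lemma NearSmooth.congr {Q : RedPoint W A} (hU : NearSmooth T φ i₀ Q) (e : ∀ i, φ i = ψ i) :
    NearSmooth T ψ i₀ Q := funext e ▸ hU

/-- Lifts of distinct points add. -/
lemma Lifts.add {R R' : (overQbar W).Point} {Q Q' : RedPoint W A} (hR : Lifts R Q)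
    (hR' : Lifts R' Q') (hne : Q ≠ Q') : Lifts (R + R') (Q + Q') := by
  obtain ⟨U, hU, hUr⟩ := NearSmooth.add (T := (⊤ : Subalgebra A (Unit → A))) (i₀ := ())
    hR.near hR'.near hne
  refine ⟨vec U (), (hU ()).resolve_left fun h0 => ne_zero_of_nonsingular hUr.1 ?_, hUr⟩
  funext k
  rw [red, show vec U () k = 0 from Subtype.ext (congrFun h0 k), map_zero]
  rfl

/-- Lifts may be negated. -/
lemma Lifts.neg {R : (overQbar W).Point} {Q : RedPoint W A} (hR : Lifts R Q) :
    Lifts (-R) (-Q) := by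
  obtain ⟨r, hr, hrr⟩ := hR
  refine ⟨(overA W A).neg r, ?_, ?_⟩
  · exact ⟨(up_neg r).symm ▸ Projective.nonsingular_neg hr.1,
      by rw [up_neg, Projective.Point.toAffine_neg hr.1, hr.2]⟩
  · exact ⟨(red_neg r).symm ▸ Projective.nonsingular_neg hrr.1,
      by rw [red_neg, Projective.Point.toAffine_neg hrr.1, hrr.2]⟩

variable (h : IsPlace A p) (hN : NodeAt W p)
include h hN

/-- A smooth lift avoiding finitely many points and not killed by two. -/
theorem exists_lifts_avoiding (F : Finset (RedPoint W A)) :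
    ∃ (R : (overQbar W).Point) (Q : RedPoint W A), Lifts R Q ∧ Q ∉ F ∧ Q ≠ 0 ∧ Q ≠ -Q := by
  have := Fermat.RED.Model.isAlgClosed_residue A
  set xs : Finset (ResidueField A) :=
    insert 0 ((WeierstrassCurve.Ψ₂Sq (overRes W A)).roots.toFinset ∪
      F.image fun Q => cvec (overRes W A) Q 0) with hxs
  -- choose a residual abscissa, lift it, solve for an integral ordinate
  obtain ⟨x₀, hx⟩ := Infinite.exists_notMem_finset xs
  simp only [hxs, Finset.mem_insert, Finset.mem_union, Finset.mem_image, Multiset.mem_toFinset,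
    Polynomial.mem_roots (Ψ₂Sq_overRes_ne_zero h hN), not_or, not_exists, not_and] at hx
  obtain ⟨hx0, hxΨ, hxF⟩ := hx
  obtain ⟨a, rfl⟩ := residue_surjective (R := A) x₀
  obtain ⟨b, hns⟩ := exists_lift_nonsingular (W := W) hN.Δ a
  have hre : red ![a, b, 1] = ![residue A a, residue A b, 1] := by
    funext k
    fin_cases k <;> simp [red]
  have heq' : (overRes W A).toAffine.Equation (residue A a) (residue A b) := by
    have h3 := equation_red hns.left
    rw [hre, Projective.equation_some] at h3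
    exact h3
  have hnr := red_nonsingular_of_x_ne_zero h hN heq' hx0
  refine ⟨_, Affine.Point.some _ _ hnr, ⟨![a, b, 1], ⟨hns, rfl⟩, ?_⟩, ?_,
    Affine.Point.some_ne_zero _, ?_⟩
  · rw [hre]
    exact rep_cvec (E := overRes W A) (Affine.Point.some _ _ hnr)
  · exact fun hF => hxF _ hF rfl
  · intro e
    rw [Affine.Point.neg_some, Affine.Point.some.injEq] at e
    exact ne_negY_of_eval_ne_zero heq' hxΨ e.2

omit hN in
/-- Powers of `p` are nonzero. -/
lemma natCast_pow_ne_zero (s : ℕ) : (p : ℚbar) ^ s ≠ 0 :=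
  pow_ne_zero _ (Nat.cast_ne_zero.mpr h.1.ne_zero)

/-- A vector of functions at scale `s` through a point of that scale, moved onto the origin. -/
theorem NearScale.down {s : ℕ} (hs1 : 1 ≤ s) (hs : IsScale W p s) {X Y : A}
    {hn : (overQbar W).Nonsingular ((p : ℚbar) ^ s * X) ((p : ℚbar) ^ s * Y)}
    (hX : residue A X ≠ 0) {U : Fin 3 → T}
    (hU : ∀ i, OnLine W ((p : ℚbar) ^ s) (up (vec U i)) (φ i)) (hUr : red (vec U i₀) ≠ 0)
    (hφ : φ i₀ = Affine.Point.some _ _ hn) :
    NearSmooth T (fun i => φ i + -φ i₀) i₀ 0 := by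
  obtain ⟨b₃, hb₃⟩ : (p : ℤ) ^ s ∣ W.a₃ := (pow_dvd_pow _ s.le_succ).trans hs.1
  set ω : A := (p : A) ^ s with hω
  set Y' : A := -Y - (W.a₁ : A) * X - (b₃ : A) with hY'
  have hωq : ((ω : A) : ℚbar) = (p : ℚbar) ^ s := by rw [hω]; push_cast; rfl
  have e3 : (W.a₃ : ℚbar) = (p : ℚbar) ^ s * (b₃ : ℚbar) := by
    rw [hb₃]
    push_cast
    rfl
  have eneg : (overQbar W).negY ((p : ℚbar) ^ s * X) ((p : ℚbar) ^ s * Y)
      = (p : ℚbar) ^ s * (Y' : ℚbar) := by
    simp only [Affine.negY, overQbar_a₁, overQbar_a₃, e3, hY']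
    push_cast
    ring
  have hn' : (overQbar W).Nonsingular ((p : ℚbar) ^ s * X) ((p : ℚbar) ^ s * (Y' : ℚbar)) :=
    eneg ▸ (Affine.nonsingular_neg ..).mpr hn
  have hneg : -φ i₀ = Affine.Point.some _ _ hn' := by
    rw [hφ, Affine.Point.neg_some]
    simp only [eneg]
  -- the value at the base point
  have hd : red ![X, Y, (1 : A)] ≠ 0 := fun e0 => by simpa [red] using congrFun e0 2
  obtain ⟨l, hl⟩ := hU i₀
  have hXY : up ![X, Y, (1 : A)] = ((p : ℚbar) ^ s)⁻¹ •
      scaleVec ((p : ℚbar) ^ s) (cvec (overP W) (φ i₀)) := by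
    rw [hφ, cvec_some]
    funext k
    have := natCast_pow_ne_zero (p := p) h s
    fin_cases k <;> simp [up, scaleVec, this]
  obtain ⟨u, hu, hur⟩ := exists_unit_smul_of_line (congrFun hl) (congrFun hXY) hd
  have hu' := hur hUr
  let V : Fin 3 → T := downVec W (algebraMap A T ω) (algebraMap A T X) (algebraMap A T Y') U
  have hV : ∀ i, vec V i = downVec W ω X Y' (vec U i) := fun i => by
    have := map_downVec W (evalAt T i) (algebraMap A T ω) (algebraMap A T X) (algebraMap A T Y') U
    exact this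
  refine ⟨V, fun i => ?_, ?_⟩
  · have h1 := onLine_downVec W hn' (hU i)
    obtain ⟨l', hl'⟩ := h1
    rw [scaleVec_one] at hl'
    have e : up (vec V i) = downVec W ((p : ℚbar) ^ s) (X : ℚbar) (Y' : ℚbar) (up (vec U i)) := by
      rw [hV, ← hωq]
      exact map_downVec W A.subtype ω X Y' _
    rw [e, hl', hneg]
    rcases eq_or_ne l' 0 with rfl | h0
    · exact Or.inl (zero_smul ℚbar _)
    · exact Or.inr ((rep_cvec (E := overP W) _).smul h0)
  · set X' := residue A X
    set Z' := residue A Y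
    have hb₃r : (b₃ : ResidueField A) = 0 := by
      refine intCast_residue_eq_zero h ?_
      obtain ⟨c, hc⟩ := hs.1
      refine ⟨c, ?_⟩
      apply mul_left_cancel₀ (pow_ne_zero s (show (p : ℤ) ≠ 0 by exact_mod_cast h.1.ne_zero))
      rw [← hb₃, hc]
      ring
    -- the tangent cone at the base point
    have hcone : Z' ^ 2 + (W.a₁ : ResidueField A) * X' * Z' - (W.a₂ : ResidueField A) * X' ^ 2
        = 0 := by
      obtain ⟨c₃, hc₃⟩ := hs.1
      obtain ⟨c₄, hc₄⟩ := hs.2.1
      obtain ⟨c₆, hc₆⟩ := hs.2.2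
      have hA : Y ^ 2 + (W.a₁ : A) * X * Y - (W.a₂ : A) * X ^ 2
          = (p : A) ^ s * X ^ 3 - (p : A) * ((c₃ : A) * Y - (c₄ : A) * X - (c₆ : A)) := by
        apply Subtype.ext
        push_cast
        have := equation_int W hn.1
        rw [hc₃, hc₄, hc₆] at this
        push_cast at this
        apply mul_left_cancel₀ (pow_ne_zero 2 (natCast_pow_ne_zero (p := p) h s))
        linear_combination this
      have := congrArg (residue A) hA
      simpa [natCast_residue_eq_zero h, zero_pow (show s ≠ 0 by omega), X', Z'] using this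
    have hN2 : 2 * Z' + (W.a₁ : ResidueField A) * X' ≠ 0 := by
      intro h0
      have : (W.b₂ : ResidueField A) * X' ^ 2 = 0 := by
        rw [WeierstrassCurve.b₂]
        push_cast
        linear_combination (2 * Z' + (W.a₁ : ResidueField A) * X') * h0 - 4 * hcone
      exact intCast_residue_ne_zero h hN.b₂
        ((mul_eq_zero.mp this).resolve_right (pow_ne_zero _ hX))
    have hred : red (vec V i₀) = -(residue A u ^ 4 *
        (2 * Z' + (W.a₁ : ResidueField A) * X') ^ 3) • ![0, 1, 0] := by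
      rw [hV, hu, downVec_smul]
      funext k
      fin_cases k <;>
        simp [red, downVec, hY', X', Z', hb₃r]; ring_nf; simp
    rw [hred]
    exact Rep.smul (v := ![0, 1, 0]) ⟨Projective.nonsingular_zero, Projective.Point.toAffine_zero⟩
      (neg_ne_zero.mpr (mul_ne_zero (pow_ne_zero _ hu') (pow_ne_zero _ hN2)))

/-- Adding a constant point of scale `s` to a family near an affine smooth point. -/
theorem NearSmooth.up {s : ℕ} (hs1 : 1 ≤ s) (hs : IsScale W p s) {Q : RedPoint W A}
    (hU : NearSmooth T φ i₀ Q) (hQ : Q ≠ 0) {R : (overQbar W).Point} (hR : IntScale A p s R) :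
    NearScale p s T (fun i => φ i + R) i₀ := by
  obtain ⟨U, hU, hUr⟩ := hU
  obtain ⟨X, Y, hn, rfl⟩ := hR
  obtain ⟨b₃, hb₃⟩ : (p : ℤ) ^ s ∣ W.a₃ := (pow_dvd_pow _ s.le_succ).trans hs.1
  obtain ⟨b₄, hb₄⟩ : (p : ℤ) ^ s ∣ W.a₄ := (pow_dvd_pow _ s.le_succ).trans hs.2.1
  obtain ⟨b₆, hb₆⟩ : (p : ℤ) ^ s ∣ W.a₆ := (pow_dvd_pow _ (by omega)).trans hs.2.2
  set ω : A := (p : A) ^ s with hω
  have hωq : ((ω : A) : ℚbar) = (p : ℚbar) ^ s := by rw [hω]; push_cast; rfl
  have cast3 : ∀ {a b : ℤ}, a = (p : ℤ) ^ s * b → (a : ℚbar) = (p : ℚbar) ^ s * (b : ℚbar) := by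
    intro a b e
    rw [e]
    push_cast
    rfl
  let V : Fin 3 → T := upVec W (algebraMap A T ω) (algebraMap A T X) (algebraMap A T Y)
    (b₃ : T) (b₄ : T) (b₆ : T) U
  have hV : ∀ i, vec V i = upVec W ω X Y (b₃ : A) (b₄ : A) (b₆ : A) (vec U i) := fun i => by
    have := map_upVec W (evalAt T i) (algebraMap A T ω) (algebraMap A T X) (algebraMap A T Y)
      (b₃ : T) (b₄ : T) (b₆ : T) U
    rw [map_intCast, map_intCast, map_intCast] at this
    exact this
  refine ⟨V, fun i => ?_, ?_⟩
  · have e : Fermat.FLAT.Curve.up (vec V i) = upVec W ((p : ℚbar) ^ s) (X : ℚbar) (Y : ℚbar)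
        (b₃ : ℚbar) (b₄ : ℚbar) (b₆ : ℚbar) (Fermat.FLAT.Curve.up (vec U i)) := by
      rw [hV, ← hωq]
      have := map_upVec W A.subtype ω X Y (b₃ : A) (b₄ : A) (b₆ : A) (vec U i)
      rw [map_intCast, map_intCast, map_intCast] at this
      exact this
    rw [e]
    refine onLine_upVec W hn (natCast_pow_ne_zero (p := p) h s) (cast3 hb₃)
      (cast3 hb₄) (cast3 hb₆) ?_
    obtain ⟨l, hl⟩ := hU.line i
    exact ⟨l, by rw [scaleVec_one, hl]⟩
  -- at the base point: `z ≠ 0`, `x ≠ 0` and `ω ≡ 0`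
  · have hz : red (vec U i₀) 2 ≠ 0 := fun e => hQ (by
      rw [← hUr.2]; exact Projective.Point.toAffine_of_Z_eq_zero e)
    have hx := red_x_ne_zero h hN hUr.1 hz
    have hωr : residue A ω = 0 := by
      rw [hω, map_pow, map_natCast, natCast_residue_eq_zero h, zero_pow (by omega)]
    rw [hV]
    simp only [red, upVec, Matrix.cons_val, map_mul, map_pow, map_sub, hωr, zero_mul, sub_zero]
    exact mul_ne_zero hz (pow_ne_zero _ hx)

/-- Translates of points of scale `s` by smooth lifts have integral coordinates at scale `s`. -/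
theorem IntScale.add {s : ℕ} (hs1 : 1 ≤ s) (hs : IsScale W p s) {R R' : (overQbar W).Point}
    {Q : RedPoint W A} (hR' : Lifts R' Q) (hQ : Q ≠ 0) (hR : IntScale A p s R) :
    IntScale A p s (R' + R) := by
  -- a lifted vector of the sum, with unit last coordinate
  obtain ⟨U, hU, hUr⟩ := NearSmooth.up h hN (T := (⊤ : Subalgebra A (Unit → A))) (i₀ := ())
    hs1 hs hR'.near hQ hR
  obtain ⟨l, hl⟩ := hU ()
  have hz : IsUnit (vec U () 2) := (residue_ne_zero_iff_isUnit _).mp hUr
  have hzq : (vec U () 2 : ℚbar) ≠ 0 := fun e => hUr (by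
    rw [red, show vec U () 2 = 0 from Subtype.ext e, map_zero])
  cases hP : R' + R with
  | zero =>
    -- so the sum is not the origin
    exfalso
    rw [hP] at hl
    apply hzq
    have := congrFun hl 2
    simpa [Fermat.FLAT.Curve.up, scaleVec, cvec_zero, ← Affine.Point.zero_def] using this
  | some x y hn =>
    rw [hP] at hl
    set u : A := ((hz.unit⁻¹ : Aˣ) : A) with hu
    have h0 := congrFun hl 0
    have h1 := congrFun hl 1
    have h2 := congrFun hl 2
    simp only [Fermat.FLAT.Curve.up, cvec_some, scaleVec, Pi.smul_apply, smul_eq_mul,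
      Matrix.cons_val, mul_one] at h0 h1 h2
    -- dividing by that unit gives the integral coordinates
    have hu2 : (u : ℚbar) * (vec U () 2 : ℚbar) = 1 := by
      rw [← MulMemClass.coe_mul, hu, IsUnit.val_inv_mul, OneMemClass.coe_one]
    have ex : (p : ℚbar) ^ s * ((u * vec U () 0 : A) : ℚbar) = x := by
      push_cast
      rw [h2] at hu2
      rw [h0]
      linear_combination x * hu2
    have ey : (p : ℚbar) ^ s * ((u * vec U () 1 : A) : ℚbar) = y := by
      push_cast
      rw [h2] at hu2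
      rw [h1]
      linear_combination y * hu2
    refine ⟨u * vec U () 0, u * vec U () 1, by rw [ex, ey]; exact hn, ?_⟩
    simp only [ex, ey]

end Near

/-! ### Points of integral scale -/

/-- The point reduces to the smooth locus, or lies at an integral scale below the depth. -/
def HasScale (A : ValuationSubring ℚbar) (p : ℕ) (P : (overQbar W).Point) : Prop :=
  (∃ Q : RedPoint W A, Lifts P Q) ∨ ∃ s, 1 ≤ s ∧ IsScale W p s ∧
    ∃ (X Y : A) (hn : (overQbar W).Nonsingular ((p : ℚbar) ^ s * X) ((p : ℚbar) ^ s * Y)),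
      residue A X ≠ 0 ∧ P = Affine.Point.some _ _ hn

variable {M : AddSubgroup (overQbar W).Point}

/-- The chart at scale `t`. -/
def chart (p : ℕ) (M : AddSubgroup (overQbar W).Point) (t : ℕ) (P : M) : Fin 3 → ℚbar :=
  scaleVec ((p : ℚbar) ^ t) (cvec (overP W) (P : (overQbar W).Point))

section Sum

variable (h : IsPlace A p) (hN : NodeAt W p) {B : ℕ} {T : Subalgebra A (M × M → A)}
include h hN

/-- Moving a projection to a prescribed generic smooth point. -/
theorem exists_normalise (π : M × M → M) (z₀ : M × M)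
    (hπ : ∀ t ≤ B, HasVec T (fun z => chart p M t (π z)) z₀)
    (hP : HasScale A p (π z₀ : (overQbar W).Point))
    (hB : ∀ s, 1 ≤ s → (∃ (X Y : A)
      (hn : (overQbar W).Nonsingular ((p : ℚbar) ^ s * X) ((p : ℚbar) ^ s * Y)),
      residue A X ≠ 0 ∧ (π z₀ : (overQbar W).Point) = Affine.Point.some _ _ hn) → s ≤ B) :
    ∃ F : Finset (RedPoint W A), ∀ (R : (overQbar W).Point) (Q : RedPoint W A), Lifts R Q → Q ∉ F →
      NearSmooth T (fun z => (π z : (overQbar W).Point) +
        (R - (π z₀ : (overQbar W).Point))) z₀ Q := by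
  -- a smooth value is moved by translation, a value at scale `s` first onto the origin
  rcases hP with ⟨q, hq⟩ | ⟨s, hs1, hs, X, Y, hn, hX, hP⟩
  · refine ⟨{-q, q + q}, fun R Q hR hQ => ?_⟩
    simp only [Finset.mem_insert, Finset.mem_singleton, not_or] at hQ
    obtain ⟨U, hU, hUr⟩ := hπ 0 B.zero_le
    have hU' : Good W U (fun z => (π z : (overQbar W).Point)) := good_of_line fun z => by
      obtain ⟨l, hl⟩ := hU z
      exact ⟨l, by simpa only [chart, pow_zero, scaleVec_one] using hl⟩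
    obtain ⟨r, hr, hrr⟩ := hq
    obtain ⟨u, hu, hur⟩ := exists_unit_smul (rep_of_red_ne_zero hU' hUr) hr
      (ne_zero_of_nonsingular hrr.1)
    have hnear : NearSmooth T (fun z => (π z : (overQbar W).Point)) z₀ q := by
      refine ⟨U, hU', ?_⟩
      have : red (vec U z₀) = residue A u • red r := by
        funext k
        simp [red, hu]
      rw [this]
      exact hrr.smul (hur hUr)
    have hK := hR.add (Lifts.neg ⟨r, hr, hrr⟩) hQ.1
    have := hnear.add (hK.near (T := T) (i₀ := z₀)) (fun e => hQ.2 (by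
      linear_combination (norm := abel) -e))
    rw [show q + (Q + -q) = Q by abel] at this
    exact this.congr fun z => by rw [sub_eq_add_neg]
  · refine ⟨{0}, fun R Q hR hQ => ?_⟩
    rw [Finset.mem_singleton] at hQ
    obtain ⟨U, hU, hUr⟩ := hπ s (hB s hs1 ⟨X, Y, hn, hX, hP⟩)
    have hdown := NearScale.down h hN (φ := fun z : M × M => (π z : (overQbar W).Point)) hs1 hs hX
      (fun z => hU z) hUr hP
    have := hdown.add (hR.near (T := T) (i₀ := z₀)) (Ne.symm hQ)
    rw [zero_add] at this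
    exact this.congr fun z => by rw [sub_eq_add_neg]; abel

/-- Near a smooth point a family is a vector of functions in every chart. -/
private lemma hasVec_chart_of_near {f : M × M → M} {z₀ : M × M} {Q : RedPoint W A}
    (hf : NearSmooth T (fun z => (f z : (overQbar W).Point)) z₀ Q) (t : ℕ) :
    HasVec T (fun z => chart p M t (f z)) z₀ := by
  obtain ⟨U, hU, hUr⟩ := hf
  refine ⟨fun k => scaleVec ((p : T) ^ t) U k, fun z => ?_, ?_⟩
  · obtain ⟨l, hl⟩ := hU.line z
    refine ⟨l, ?_⟩
    have e : up (vec (fun k => scaleVec ((p : T) ^ t) U k) z)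
        = scaleVec ((p : ℚbar) ^ t) (up (vec U z)) := by
      funext k
      fin_cases k <;> simp [up, vec, scaleVec]
    rw [e, hl, scaleVec_smul]
    rfl
  · intro h0
    have hh : ∀ k, red (vec (fun k => scaleVec ((p : T) ^ t) U k) z₀) k
        = scaleVec ((p : ResidueField A) ^ t) (red (vec U z₀)) k := by
      intro k
      fin_cases k <;> simp [red, vec, scaleVec]
    have e0 : red (vec U z₀) 0 = 0 := by simpa [scaleVec] using (hh 0).symm.trans (congrFun h0 0)
    have e1 : red (vec U z₀) 1 = 0 := by simpa [scaleVec] using (hh 1).symm.trans (congrFun h0 1)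
    by_cases hz : red (vec U z₀) 2 = 0
    · exact Projective.Y_ne_zero_of_Z_eq_zero hUr.1 hz e1
    · exact red_x_ne_zero h hN hUr.1 hz e0

omit hN in
/-- A vector at scale `s` through a point of that scale has nonzero first coordinate modulo the
place. -/
private lemma red_zero_ne_zero_of_scale {s : ℕ} {P : M} {X Y : A}
    {hn : (overQbar W).Nonsingular ((p : ℚbar) ^ s * X) ((p : ℚbar) ^ s * Y)}
    (hX : residue A X ≠ 0) (hP : (P : (overQbar W).Point) = Affine.Point.some _ _ hn)
    {v : Fin 3 → A} {l : ℚbar} (hl : up v = l • chart p M s P) (hv : red v 2 ≠ 0) :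
    red v 0 ≠ 0 := by
  have hXY : up ![X, Y, (1 : A)] = ((p : ℚbar) ^ s)⁻¹ • chart p M s P := by
    rw [chart, hP, cvec_some]
    funext k
    have := natCast_pow_ne_zero (p := p) h s
    fin_cases k <;> simp [up, scaleVec, this]
  obtain ⟨u, hu, hur⟩ := exists_unit_smul_of_line (congrFun hl) (congrFun hXY)
    (fun e0 => by simpa [red] using congrFun e0 2)
  intro e0
  have hu0 := hur fun e => hv (congrFun e 2)
  rw [hu] at e0
  simp [red, hu0, hX] at e0

omit h hN in
/-- A vector at scale `s` with nonzero outer coordinates modulo the place gives vectors in every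
chart. -/
private lemma hasVec_chart_of_scale {s : ℕ} {f : M × M → M} {z₀ : M × M} {U : Fin 3 → T}
    (hU : ∀ z, ∃ l : ℚbar, up (vec U z) = l • chart p M s (f z))
    (hX0 : red (vec U z₀) 0 ≠ 0) (hUr : red (vec U z₀) 2 ≠ 0) (t : ℕ) :
    HasVec T (fun z => chart p M t (f z)) z₀ := by
  rcases le_total s t with hst | hts
  · obtain ⟨k, rfl⟩ := Nat.exists_eq_add_of_le hst
    refine ⟨fun j => scaleVec ((p : T) ^ k) U j, fun z => ?_, fun h0 => hX0 ?_⟩
    · obtain ⟨l, hl⟩ := hU z
      refine ⟨l, ?_⟩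
      have e : up (vec (fun j => scaleVec ((p : T) ^ k) U j) z)
          = scaleVec ((p : ℚbar) ^ k) (up (vec U z)) := by
        funext j
        fin_cases j <;> simp [up, vec, scaleVec]
      rw [e, hl, scaleVec_smul]
      simp only [chart, pow_add]
      congr 1
      funext j
      fin_cases j <;> simp [scaleVec, mul_assoc, mul_left_comm]
    · simpa [red, vec, scaleVec] using congrFun h0 0
  · obtain ⟨k, rfl⟩ := Nat.exists_eq_add_of_le hts
    refine ⟨![(p : T) ^ k * U 0, (p : T) ^ k * U 1, U 2], fun z => ?_, fun h0 => hUr ?_⟩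
    · obtain ⟨l, hl⟩ := hU z
      refine ⟨(p : ℚbar) ^ k * l, ?_⟩
      have h0 := congrFun hl 0
      have h1 := congrFun hl 1
      have h2 := congrFun hl 2
      simp only [up, Pi.smul_apply, smul_eq_mul, chart, scaleVec, Matrix.cons_val] at h0 h1 h2
      funext j
      fin_cases j <;> simp only [up, vec, chart, scaleVec, Pi.smul_apply, smul_eq_mul,
        Fin.zero_eta, Fin.mk_one, Fin.reduceFinMk, Matrix.cons_val, MulMemClass.coe_mul,
        SubmonoidClass.coe_pow, Pi.mul_apply, Pi.pow_apply]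
      · change (p : ℚbar) ^ k * (vec U z 0 : ℚbar) = _
        rw [h0]; ring
      · change (p : ℚbar) ^ k * (vec U z 1 : ℚbar) = _
        rw [h1]; ring
      · change (vec U z 2 : ℚbar) = _
        rw [h2]; ring
    · simpa [red, vec] using congrFun h0 2

/-- The sum is locally a vector of functions in every chart. -/
theorem hasVec_chart_add (hM : ∀ P ∈ M, HasScale A p P)
    (hB : ∀ P ∈ M, ∀ s, 1 ≤ s → (∃ (X Y : A)
      (hn : (overQbar W).Nonsingular ((p : ℚbar) ^ s * X) ((p : ℚbar) ^ s * Y)),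
      residue A X ≠ 0 ∧ (P : (overQbar W).Point) = Affine.Point.some _ _ hn) → s ≤ B)
    (h1 : ∀ t ≤ B, ∀ z₀, HasVec T (fun z => chart p M t z.1) z₀)
    (h2 : ∀ t ≤ B, ∀ z₀, HasVec T (fun z => chart p M t z.2) z₀) (t : ℕ) (z₀ : M × M) :
    HasVec T (fun z => chart p M t (z.1 + z.2)) z₀ := by
  obtain ⟨F₁, hF₁⟩ := exists_normalise h hN Prod.fst z₀ (fun t ht => h1 t ht z₀)
    (hM _ z₀.1.2) (hB _ z₀.1.2)
  obtain ⟨F₂, hF₂⟩ := exists_normalise h hN Prod.snd z₀ (fun t ht => h2 t ht z₀)
    (hM _ z₀.2.2) (hB _ z₀.2.2)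
  obtain ⟨R₁, Q₁, hR₁, hQ₁, -, -⟩ := exists_lifts_avoiding h hN (F₁)
  obtain ⟨Rt, τ, hτ, -, -, hτ2⟩ := exists_lifts_avoiding h hN (W := W) (A := A) ∅
  set S := hM _ (z₀.1 + z₀.2).2
  obtain ⟨σ₀, hσ₀⟩ : ∃ σ₀ : RedPoint W A, ∀ Q, Lifts ((z₀.1 + z₀.2 : M) : (overQbar W).Point) Q →
      (∃ r : Fin 3 → A, Rep (overP W) (up r) ((z₀.1 + z₀.2 : M) : (overQbar W).Point) ∧
        Rep (overRes W A) (red r) σ₀) := by
    by_cases he : ∃ Q : RedPoint W A, Lifts ((z₀.1 + z₀.2 : M) : (overQbar W).Point) Q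
    · exact ⟨he.choose, fun Q _ => he.choose_spec⟩
    · exact ⟨0, fun Q hQ => absurd ⟨Q, hQ⟩ he⟩
  -- choose auxiliary smooth points `R₁, R₂` avoiding the degenerate chords
  set F := insert Q₁ (insert (-Q₁) (insert (-Q₁ - σ₀) F₂)) with hF
  obtain ⟨Ra, Qa, hRa, hQaF, -, -⟩ :=
    exists_lifts_avoiding h hN (insert τ (F ∪ F.image (fun x => x - τ)))
  simp only [Finset.mem_insert, Finset.mem_union, Finset.mem_image, not_or, not_exists,
    not_and] at hQaF
  obtain ⟨R₂, Q₂, hR₂, hQ₂, h2S⟩ : ∃ R₂ Q₂, Lifts (W := W) (A := A) R₂ Q₂ ∧ Q₂ ∉ F ∧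
      (Q₁ + Q₂) + (Q₁ + Q₂) ≠ σ₀ := by
    by_cases hs : (Q₁ + Qa) + (Q₁ + Qa) = σ₀
    · refine ⟨Ra + Rt, Qa + τ, hRa.add hτ hQaF.1, fun hmem => hQaF.2.2 _ hmem (by abel),
        fun e => ?_⟩
      exact hτ2 (by linear_combination (norm := abel) e - hs)
    · exact ⟨Ra, Qa, hRa, hQaF.2.1, hs⟩
  simp only [hF, Finset.mem_insert, not_or] at hQ₂
  have hw := (hF₁ R₁ Q₁ hR₁ hQ₁).add (hF₂ R₂ Q₂ hR₂ hQ₂.2.2.2) (Ne.symm hQ₂.1)
  have h12 := hR₁.add hR₂ (Ne.symm hQ₂.1)
  have h12ne : Q₁ + Q₂ ≠ 0 := fun e => hQ₂.2.1 (eq_neg_of_add_eq_zero_right e)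
  -- translate the moved sum back, to a smooth point or to scale `s`
  rcases S with ⟨Q, hQ⟩ | ⟨s, hs1, hs, X, Y, hn, hX, hP⟩
  · obtain ⟨r, hr, hrr⟩ := hσ₀ Q hQ
    have hK := (Lifts.neg h12).add ⟨r, hr, hrr⟩ (fun e => hQ₂.2.2.1 (by
      rw [← e]; abel))
    exact hasVec_chart_of_near h hN
      ((hw.add (hK.near (T := T) (i₀ := z₀)) (fun e => h2S (by
        linear_combination (norm := abel) e))).congr fun z => by
        simp only [AddSubgroup.coe_add]; abel) t
  · have hK : IntScale A p s (-(R₁ + R₂) + ((z₀.1 + z₀.2 : M) : (overQbar W).Point)) :=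
      IntScale.add h hN hs1 hs (Lifts.neg h12) (neg_ne_zero.mpr h12ne) ⟨X, Y, hn, hP⟩
    obtain ⟨U, hU, hUr⟩ := NearSmooth.up h hN hs1 hs hw h12ne hK
    have hUeq : ∀ z : M × M, ∃ l : ℚbar, up (vec U z) = l • chart p M s (z.1 + z.2) := by
      intro z
      obtain ⟨l, hl⟩ := hU z
      refine ⟨l, ?_⟩
      rw [hl, chart]
      congr 3
      simp only [AddSubgroup.coe_add]
      abel
    obtain ⟨l, hl⟩ := hUeq z₀
    exact hasVec_chart_of_scale hUeq (red_zero_ne_zero_of_scale h hX hP hl hUr) hUr t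

end Sum

/-- **Subgroups all of whose points have an integral scale at the node are flat.** -/
theorem nonempty_model_nodal (h : IsPlace A p) (hN : NodeAt W p)
    (M : AddSubgroup (overQbar W).Point) [Finite M] (hM : ∀ σ : Γℚ, ∀ P ∈ M, σ • P ∈ M)
    (hsc : ∀ P ∈ M, HasScale A p P) :
    Nonempty (Model A (⊤ : Subgroup Γℚ) (fun σ => galHom hM σ)) := by
  have := Fintype.ofFinite M
  -- a bound for the scales
  have huniq : ∀ (P : (overQbar W).Point) (s s' : ℕ) (X Y X' Y' : A)
      (hn : (overQbar W).Nonsingular ((p : ℚbar) ^ s * X) ((p : ℚbar) ^ s * Y))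
      (hn' : (overQbar W).Nonsingular ((p : ℚbar) ^ s' * X') ((p : ℚbar) ^ s' * Y')),
      residue A X ≠ 0 → residue A X' ≠ 0 → P = Affine.Point.some _ _ hn →
      P = Affine.Point.some _ _ hn' → s = s' := by
    intro P s s' X Y X' Y' hn hn' hX hX' e e'
    rw [e, Affine.Point.some.injEq] at e'
    by_contra hne
    rcases Nat.lt_or_gt_of_ne hne with hlt | hlt
    · obtain ⟨k, rfl⟩ := Nat.exists_eq_add_of_lt hlt
      apply hX
      have : X = (p : A) ^ (k + 1) * X' := Subtype.ext (mul_left_cancel₀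
        (natCast_pow_ne_zero (p := p) h s) (by push_cast; rw [e'.1]; ring))
      rw [this, map_mul, map_pow, map_natCast, natCast_residue_eq_zero h, zero_pow (by omega),
        zero_mul]
    · obtain ⟨k, rfl⟩ := Nat.exists_eq_add_of_lt hlt
      apply hX'
      have : X' = (p : A) ^ (k + 1) * X := Subtype.ext (mul_left_cancel₀
        (natCast_pow_ne_zero (p := p) h s') (by push_cast; rw [← e'.1]; ring))
      rw [this, map_mul, map_pow, map_natCast, natCast_residue_eq_zero h, zero_pow (by omega),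
        zero_mul]
  have hBex : ∀ P : M, ∃ b, ∀ s, 1 ≤ s → (∃ (X Y : A)
      (hn : (overQbar W).Nonsingular ((p : ℚbar) ^ s * X) ((p : ℚbar) ^ s * Y)),
      residue A X ≠ 0 ∧ (P : (overQbar W).Point) = Affine.Point.some _ _ hn) → s ≤ b := by
    intro P
    by_cases he : ∃ s, 1 ≤ s ∧ ∃ (X Y : A)
        (hn : (overQbar W).Nonsingular ((p : ℚbar) ^ s * X) ((p : ℚbar) ^ s * Y)),
        residue A X ≠ 0 ∧ (P : (overQbar W).Point) = Affine.Point.some _ _ hn
    · obtain ⟨s₀, -, X₀, Y₀, hn₀, hX₀, e₀⟩ := he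
      exact ⟨s₀, fun s _ ⟨X, Y, hn, hX, e⟩ => (huniq _ _ _ _ _ _ _ hn hn₀ hX hX₀ e e₀).le⟩
    · exact ⟨0, fun s hs hh => absurd ⟨s, hs, hh⟩ he⟩
  choose b hb using hBex
  set B := Finset.univ.sup b with hBdef
  refine nonempty_model_of_charts (g := galHom hM) h
    (fun (t : Fin (B + 1)) (P : M) => chart p M t P) (fun t P => ?_) (fun t σ P => ?_) (t₀ := 0)
    (fun P Q hl => ?_) (fun T h1 h2 t z₀ => ?_)
  · intro h0
    apply ne_zero_of_nonsingular (rep_cvec (E := overP W) (P : (overQbar W).Point)).1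
    funext k
    have := congrFun h0 k
    fin_cases k <;> simpa [chart, scaleVec, natCast_pow_ne_zero (p := p) h] using this
  · simp only [chart, galHom_coe, cvec_smul]
    funext k
    fin_cases k <;> simp [scaleVec, map_pow]
  · obtain ⟨l, hl⟩ := hl
    refine Subtype.ext ?_
    simp only [chart, Fin.val_zero, pow_zero, scaleVec_one] at hl
    have hP := rep_cvec (E := overP W) (P : (overQbar W).Point)
    have hQ := rep_cvec (E := overP W) (Q : (overQbar W).Point)
    rcases eq_or_ne l 0 with rfl | h0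
    · exact absurd (hl.trans (zero_smul ℚbar _)) (ne_zero_of_nonsingular hP.1)
    · rw [← hP.2, hl]
      exact (hQ.smul h0).2
  · refine hasVec_chart_add h hN (B := B) hsc
      (fun P hP s hs hh => (hb ⟨P, hP⟩ s hs hh).trans (Finset.le_sup (Finset.mem_univ _)))
      (fun t ht z => h1 ⟨t, Nat.lt_succ_of_le ht⟩ z) (fun t ht z => h2 ⟨t, Nat.lt_succ_of_le ht⟩ z)
      t z₀

end Fermat.FLAT.Curve
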