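import Fermat.Agent.EC.Semistable
import Mathlib.AlgebraicGeometry.EllipticCurve.Projective.Point
import Mathlib.FieldTheory.IsAlgClosed.Basic
import Mathlib.FieldTheory.Finite.Basic
import Mathlib.RingTheory.Polynomial.Content
import Mathlib.Algebra.Algebra.ZMod

/-!
# Primitive projective vectors on a Weierstrass curve with good reduction

The chord formula `addXYZ` is either zero or computes the sum, over `ℚbar` and over the residue
field of a place; it is nonzero as soon as the two reduced points differ.
-/

set_option autoImplicit false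
set_option linter.unusedSectionVars false

noncomputable section

open WeierstrassCurve IsLocalRing Fermat.EC Fermat.EC.Val
open scoped WeierstrassCurve.Projective

namespace Fermat.FLAT.Curve

local notation "ℚbar" => AlgebraicClosure ℚ

section Field

variable {F : Type*} [Field F] {E : Projective F}

/-- A vector represents a point. -/
def Rep (E : Projective F) (v : Fin 3 → F) (P : E.toAffine.Point) : Prop :=
  E.Nonsingular v ∧ Projective.Point.toAffine E v = P

open scoped Classical in
/-- The standard representative of a point. -/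
def cvec (E : Projective F) : E.toAffine.Point → (Fin 3 → F)
  | 0 => ![0, 1, 0]
  | .some x y _ => ![x, y, 1]

/-- A nonsingular vector is nonzero. -/
lemma ne_zero_of_nonsingular {v : Fin 3 → F} (hv : E.Nonsingular v) : v ≠ 0 := by
  rintro rfl
  exact Projective.Y_ne_zero_of_Z_eq_zero hv rfl rfl

/-- The standard representative represents its point. -/
lemma rep_cvec (P : E.toAffine.Point) : Rep E (cvec E P) P := by
  cases P with
  | zero => exact ⟨Projective.nonsingular_zero, Projective.Point.toAffine_zero⟩
  | some x y h =>
    exact ⟨(Projective.nonsingular_some x y).mpr h,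
      Projective.Point.toAffine_some ((Projective.nonsingular_some x y).mpr h)⟩

/-- Nonzero multiples represent the same point. -/
lemma Rep.smul {v : Fin 3 → F} {P : E.toAffine.Point} (h : Rep E v P) {u : F} (hu : u ≠ 0) :
    Rep E (u • v) P :=
  ⟨(Projective.nonsingular_smul v hu.isUnit).mpr h.1,
    (Projective.Point.toAffine_smul v hu.isUnit).trans h.2⟩

/-- Every representative is a multiple of the standard one. -/
lemma Rep.exists_smul {v : Fin 3 → F} {P : E.toAffine.Point} (h : Rep E v P) :
    ∃ l : F, l ≠ 0 ∧ v = l • cvec E P := by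
  obtain ⟨hv, hP⟩ := h
  by_cases hz : v 2 = 0
  · have h0 : P = 0 := hP ▸ Projective.Point.toAffine_of_Z_eq_zero hz
    refine ⟨v 1, Projective.Y_ne_zero_of_Z_eq_zero hv hz, ?_⟩
    subst h0
    have hx : v 0 = 0 := Projective.X_eq_zero_of_Z_eq_zero hv.left hz
    funext i
    fin_cases i <;> simp [cvec, hz, hx]
  · refine ⟨v 2, hz, ?_⟩
    rw [← hP, Projective.Point.toAffine_of_Z_ne_zero hv hz]
    funext i
    fin_cases i <;> simp [cvec, mul_div_cancel₀ _ hz]

open scoped Classical in
/-- The chord formula either vanishes or computes the sum. -/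
theorem addXYZ_zero_or_rep {v w : Fin 3 → F} {P Q : E.toAffine.Point}
    (hv : v = 0 ∨ Rep E v P) (hw : w = 0 ∨ Rep E w Q) :
    E.addXYZ v w = 0 ∨ Rep E (E.addXYZ v w) (P + Q) := by
  rcases hv with rfl | hv
  · left
    have := Projective.addXYZ_smul (W' := E) 0 w 0 1
    simpa using this
  rcases hw with rfl | hw
  · left
    have := Projective.addXYZ_smul (W' := E) v 0 1 0
    simpa using this
  by_cases he : v ≈ w
  · left
    obtain ⟨u, rfl⟩ := he
    have := Projective.addXYZ_smul (W' := E) w w (u : F) 1
    rw [one_smul, Projective.addXYZ_self] at this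
    change E.addXYZ ((u : F) • w) w = 0
    rw [this]
    funext i
    fin_cases i <;> simp
  · right
    refine ⟨?_, ?_⟩
    · rw [← Projective.add_of_not_equiv he]
      exact Projective.nonsingular_add hv.1 hw.1
    · rw [← Projective.add_of_not_equiv he, Projective.Point.toAffine_add hv.1 hw.1, hv.2, hw.2]

/-- The chord formula is nonzero at inequivalent vectors. -/
lemma addXYZ_ne_zero {v w : Fin 3 → F} (hv : E.Nonsingular v) (hw : E.Nonsingular w)
    (he : ¬ v ≈ w) : E.addXYZ v w ≠ 0 := by
  rw [← Projective.add_of_not_equiv he]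
  exact ne_zero_of_nonsingular (Projective.nonsingular_add hv hw)

/-- A nonzero solution of the equation of an elliptic curve is nonsingular. -/
lemma nonsingular_of_equation (hΔ : WeierstrassCurve.Δ E ≠ 0) {v : Fin 3 → F}
    (he : E.Equation v) (hv : v ≠ 0) : E.Nonsingular v := by
  by_cases hz : v 2 = 0
  · have hx : v 0 = 0 := Projective.X_eq_zero_of_Z_eq_zero he hz
    have hy : v 1 ≠ 0 := by
      intro hy
      apply hv
      funext i
      fin_cases i <;> simp [hz, hx, hy]
    have h : v = v 1 • ![0, 1, 0] := by
      funext i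
      fin_cases i <;> simp [hz, hx]
    rw [h, Projective.nonsingular_smul _ hy.isUnit]
    exact Projective.nonsingular_zero
  · rw [Projective.nonsingular_of_Z_ne_zero hz,
      ← Affine.equation_iff_nonsingular_of_Δ_ne_zero hΔ, ← Projective.equation_of_Z_ne_zero hz]
    exact he

/-- The translating point: avoids a given abscissa and is not killed by two. -/
lemma exists_point_avoiding [IsAlgClosed F] (hΔ : WeierstrassCurve.Δ E ≠ 0) (s : F) :
    ∃ x₀ : F, x₀ ≠ s ∧ (WeierstrassCurve.Ψ₂Sq E).eval x₀ ≠ 0 := by
  classical
  have := (WeierstrassCurve.isElliptic_iff (W := E)).mpr hΔ.isUnit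
  have hp : WeierstrassCurve.Ψ₂Sq E ≠ 0 := by
    intro h
    have h3 : (4 : F) = 0 := by
      have := congrArg (fun f => Polynomial.coeff f 3) h
      simpa [WeierstrassCurve.Ψ₂Sq, Polynomial.coeff_X] using this
    have h2 : WeierstrassCurve.b₂ E = 0 := by
      have := congrArg (fun f => Polynomial.coeff f 2) h
      simpa [WeierstrassCurve.Ψ₂Sq, Polynomial.coeff_X] using this
    have h0 : WeierstrassCurve.b₆ E = 0 := by
      have := congrArg (fun f => Polynomial.coeff f 0) h
      simpa [WeierstrassCurve.Ψ₂Sq, Polynomial.coeff_X] using this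
    apply hΔ
    rw [WeierstrassCurve.Δ, h2, h0]
    linear_combination (-2) * WeierstrassCurve.b₄ E ^ 3 * h3
  obtain ⟨x₀, hx⟩ := Infinite.exists_notMem_finset
    (insert s (WeierstrassCurve.Ψ₂Sq E).roots.toFinset)
  rw [Finset.mem_insert, Multiset.mem_toFinset, not_or, Polynomial.mem_roots hp] at hx
  exact ⟨x₀, hx.1, hx.2⟩

/-- Such a point is different from its negative. -/
lemma ne_negY_of_eval_ne_zero {x y : F} (h : E.toAffine.Equation x y)
    (hx : (WeierstrassCurve.Ψ₂Sq E).eval x ≠ 0) : y ≠ E.toAffine.negY x y := by
  intro hy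
  apply hx
  rw [Affine.equation_iff] at h
  simp only [Affine.negY] at hy
  simp only [WeierstrassCurve.Ψ₂Sq, Polynomial.eval_add, Polynomial.eval_mul, Polynomial.eval_C,
    Polynomial.eval_pow, Polynomial.eval_X, WeierstrassCurve.b₂, WeierstrassCurve.b₄,
    WeierstrassCurve.b₆]
  linear_combination (2 * y + E.a₁ * x + E.a₃) * hy - 4 * h

end Field

/-! ### Reduction at a place -/

section Place

variable {p : ℕ} [hp : Fact p.Prime] {A : ValuationSubring ℚbar} (W : WeierstrassCurve ℤ)

/-- `W` over the place. -/
abbrev overA (A : ValuationSubring ℚbar) : Projective A := (W.map (Int.castRingHom A)).toProjective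

/-- `W` over the residue field of the place. -/
abbrev overRes (A : ValuationSubring ℚbar) : Projective (ResidueField A) :=
  (W.map (Int.castRingHom (ResidueField A))).toProjective

/-- `W` over `ℚbar`, projectively. -/
abbrev overP : Projective ℚbar := (overQbar W : WeierstrassCurve ℚbar).toProjective

/-- `W` over the place, pushed to `ℚbar`. -/
lemma map_subtype_overA :
    ((overA W A).map A.subtype : WeierstrassCurve ℚbar).toProjective = overP W := by
  change (W.map (Int.castRingHom A)).map A.subtype = (W.map (Int.castRingHom ℚ)).map _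
  rw [WeierstrassCurve.map_map, WeierstrassCurve.map_map]
  congr 1

/-- `W` over the place, pushed to the residue field. -/
lemma map_residue_overA :
    ((overA W A).map (residue A) : WeierstrassCurve (ResidueField A)).toProjective
      = overRes W A := by
  change (W.map (Int.castRingHom A)).map (residue A) = W.map _
  rw [WeierstrassCurve.map_map]
  congr 1

/-- `p` vanishes in the residue field. -/
lemma natCast_residue_eq_zero (h : IsPlace A p) : (p : ResidueField A) = 0 := by
  rw [← map_natCast (residue A), residue_eq_zero_iff, mem_maximalIdeal]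
  exact ValuationSubring.coe_mem_nonunits_iff.mp (by push_cast; exact h.2)

/-- The residue field has characteristic `p`. -/
lemma charP_residue (h : IsPlace A p) : CharP (ResidueField A) p :=
  haveI := Fact.mk (natCast_residue_eq_zero h)
  (CharP.charP_iff_prime_eq_zero h.1).mpr this.out

variable {W}

/-- Good reduction: the discriminant survives in the residue field. -/
lemma Δ_overRes_ne_zero (h : IsPlace A p) (hgood : ¬ (p : ℤ) ∣ W.Δ) :
    WeierstrassCurve.Δ (overRes W A) ≠ 0 := by
  change (W.map _).Δ ≠ 0
  rw [WeierstrassCurve.map_Δ]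
  have := charP_residue h
  rwa [eq_intCast, Ne, CharP.intCast_eq_zero_iff _ p]

/-- Coordinates in `ℚbar` of a vector over the place. -/
abbrev up (v : Fin 3 → A) : Fin 3 → ℚbar := fun i => (v i : ℚbar)

/-- Reduced coordinates. -/
abbrev red (v : Fin 3 → A) : Fin 3 → ResidueField A := fun i => residue A (v i)

/-- Reductions satisfy the equation. -/
lemma equation_red {v : Fin 3 → A} (he : (overP W).Equation (up v)) :
    (overRes W A).Equation (red v) := by
  rw [← map_residue_overA]
  refine Projective.Equation.map (residue A) ?_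
  rw [← map_subtype_overA (A := A)] at he
  exact (Projective.map_equation (W' := overA W A) (f := A.subtype) Subtype.val_injective v).mp he

/-- Primitive vectors reduce to nonsingular ones. -/
lemma nonsingular_red (h : IsPlace A p) (hgood : ¬ (p : ℤ) ∣ W.Δ) {v : Fin 3 → A}
    (hv : (overP W).Nonsingular (up v)) (hr : red v ≠ 0) : (overRes W A).Nonsingular (red v) :=
  nonsingular_of_equation (Δ_overRes_ne_zero h hgood) (equation_red hv.left) hr

/-- The chord formula over the place computes that over `ℚbar`. -/
lemma up_addXYZ (v w : Fin 3 → A) :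
    up ((overA W A).addXYZ v w) = (overP W).addXYZ (up v) (up w) := by
  rw [← map_subtype_overA (A := A)]
  exact (Projective.map_addXYZ A.subtype v w).symm

/-- The chord formula commutes with reduction. -/
lemma red_addXYZ (v w : Fin 3 → A) :
    red ((overA W A).addXYZ v w) = (overRes W A).addXYZ (red v) (red w) := by
  rw [← map_residue_overA]
  exact (Projective.map_addXYZ (residue A) v w).symm

/-- Negation over the place computes that over `ℚbar`. -/
lemma up_neg (v : Fin 3 → A) : up ((overA W A).neg v) = (overP W).neg (up v) := by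
  rw [← map_subtype_overA (A := A)]
  exact (Projective.map_neg A.subtype v).symm

/-- Negation commutes with reduction. -/
lemma red_neg (v : Fin 3 → A) : red ((overA W A).neg v) = (overRes W A).neg (red v) := by
  rw [← map_residue_overA]
  exact (Projective.map_neg (residue A) v).symm

/-- Primitive representatives exist. -/
theorem exists_primitive (P : (overQbar W).Point) :
    ∃ v : Fin 3 → A, Rep (overP W) (up v) P ∧ red v ≠ 0 := by
  set c := cvec (overP W) P with hc
  obtain ⟨j, hj⟩ := Finite.exists_max fun i => A.valuation (c i)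
  have hc0 : c j ≠ 0 := by
    intro hz
    apply ne_zero_of_nonsingular (rep_cvec (E := overP W) P).1
    funext i
    have := hj i
    rw [hz, map_zero, le_zero_iff, map_eq_zero] at this
    exact this
  have hmem : ∀ i, c i / c j ∈ A := fun i => by
    rw [← A.valuation_le_one_iff, map_div₀]
    exact (div_le_one₀ (zero_lt_iff.mpr fun e => hc0 (A.valuation.zero_iff.mp e))).mpr (hj i)
  refine ⟨fun i => ⟨_, hmem i⟩, ?_, fun h0 => ?_⟩
  · have : up (fun i => (⟨_, hmem i⟩ : A)) = (c j)⁻¹ • c := by
      funext i
      simp [up, div_eq_inv_mul]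
    rw [this]
    exact (rep_cvec (E := overP W) P).smul (inv_ne_zero hc0)
  · have h1 := congrFun h0 j
    have : (⟨_, hmem j⟩ : A) = 1 := Subtype.ext (div_self hc0)
    simp [red, this] at h1

/-- Two vectors on the same line, the second primitive: the first is an integral multiple. -/
theorem exists_unit_smul_of_line {κ : Type*} {c : κ → ℚbar} {v w : κ → A} {l m : ℚbar}
    (hv : ∀ k, (v k : ℚbar) = l * c k) (hw : ∀ k, (w k : ℚbar) = m * c k)
    (hwr : (fun k => residue A (w k)) ≠ 0) :
    ∃ u : A, v = u • w ∧ ((fun k => residue A (v k)) ≠ 0 → residue A u ≠ 0) := by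
  obtain ⟨j, hj⟩ := Function.ne_iff.mp hwr
  simp only [Pi.zero_apply] at hj
  obtain ⟨u₀, hu₀⟩ := (residue_ne_zero_iff_isUnit _).mp hj
  set u : A := v j * ↑u₀⁻¹ with hu
  have huw : v j = u * w j := by rw [hu, mul_assoc, ← hu₀, Units.inv_mul, mul_one]
  have hjne : (w j : ℚbar) ≠ 0 := fun e => hj (by rw [show w j = 0 from Subtype.ext e, map_zero])
  have h1 : l * c j = (u : ℚbar) * (m * c j) := by
    rw [← hv, ← hw, ← MulMemClass.coe_mul, ← huw]
  have hlm : l = (u : ℚbar) * m := by
    rw [← mul_assoc] at h1
    exact mul_right_cancel₀ (right_ne_zero_of_mul ((hw j).symm.trans_ne hjne)) h1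
  have hvu : v = u • w := funext fun k => Subtype.ext (by
    rw [Pi.smul_apply, smul_eq_mul, MulMemClass.coe_mul, hv, hw, hlm, mul_assoc])
  refine ⟨u, hvu, fun hr h0 => hr (funext fun k => ?_)⟩
  simp [hvu, h0]

/-- Two primitive vectors for the same point differ by a unit. -/
theorem exists_unit_smul {v w : Fin 3 → A} {P : (overQbar W).Point}
    (hv : Rep (overP W) (up v) P) (hw : Rep (overP W) (up w) P) (hwr : red w ≠ 0) :
    ∃ u : A, v = u • w ∧ (red v ≠ 0 → residue A u ≠ 0) := by
  obtain ⟨l, -, e⟩ := hv.exists_smul
  obtain ⟨m, -, e'⟩ := hw.exists_smul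
  exact exists_unit_smul_of_line (congrFun e) (congrFun e') hwr

/-- Residues are roots of unity or zero. -/
theorem exists_pow_eq_one (h : IsPlace A p) {t : ResidueField A} (ht : t ≠ 0) :
    ∃ d : ℕ, 0 < d ∧ t ^ d = 1 := by
  classical
  have := charP_residue h
  let := ZMod.algebra (ResidueField A) p
  obtain ⟨a, rfl⟩ := residue_surjective (R := A) t
  have halg : IsAlgebraic ℤ (a : ℚbar) :=
    (IsFractionRing.isAlgebraic_iff ℤ ℚ ℚbar).mpr (Algebra.IsAlgebraic.isAlgebraic _)
  obtain ⟨P, hP0, hP⟩ := halg
  have hQ : Polynomial.aeval (a : ℚbar) P.primPart = 0 := by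
    have := hP
    rw [P.eq_C_content_mul_primPart, map_mul, mul_eq_zero, Polynomial.aeval_C] at this
    refine this.resolve_left ?_
    rw [eq_intCast, Int.cast_eq_zero, Polynomial.content_eq_zero_iff]
    exact hP0
  have hQA : Polynomial.aeval a P.primPart = 0 := Subtype.ext (by
    rw [ZeroMemClass.coe_zero, ← hQ]
    exact (Polynomial.aeval_algHom_apply (A.subtype.toIntAlgHom) a P.primPart).symm)
  -- a primitive integral equation reduces to a nonzero one
  have hint : IsIntegral (ZMod p) (residue A a) := by
    refine IsAlgebraic.isIntegral ⟨P.primPart.map (Int.castRingHom (ZMod p)), ?_, ?_⟩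
    · intro h0
      have hdvd : ∀ i, (p : ℤ) ∣ P.primPart.coeff i := fun i => by
        have := congrArg (fun f => Polynomial.coeff f i) h0
        simpa [Polynomial.coeff_map, ZMod.intCast_zmod_eq_zero_iff_dvd] using this
      have hC : Polynomial.C (p : ℤ) ∣ P.primPart := (Polynomial.C_dvd_iff_dvd_coeff _ _).mpr hdvd
      have := P.isPrimitive_primPart (p : ℤ) hC
      rw [Int.isUnit_iff_natAbs_eq] at this
      simp [h.1.ne_one] at this
    · rw [Polynomial.aeval_def, Polynomial.eval₂_map,
        RingHom.ext_int ((algebraMap (ZMod p) (ResidueField A)).comp (Int.castRingHom (ZMod p)))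
          ((residue A).comp (algebraMap ℤ A)),
        ← Polynomial.hom_eval₂, ← Polynomial.aeval_def, hQA, map_zero]
  -- so the residue lies in a finite field
  have := IntermediateField.adjoin.finiteDimensional hint
  have : Finite (IntermediateField.adjoin (ZMod p) {residue A a}) :=
    Module.finite_of_finite (ZMod p)
  have := Fintype.ofFinite (IntermediateField.adjoin (ZMod p) {residue A a})
  set z : IntermediateField.adjoin (ZMod p) {residue A a} :=
    ⟨residue A a, IntermediateField.mem_adjoin_simple_self _ _⟩
  have hz : z ≠ 0 := fun e => ht (congrArg Subtype.val e)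
  refine ⟨Fintype.card (IntermediateField.adjoin (ZMod p) {residue A a}) - 1, ?_, ?_⟩
  · have := Fintype.one_lt_card (α := IntermediateField.adjoin (ZMod p) {residue A a})
    omega
  · exact congrArg Subtype.val (FiniteField.pow_card_sub_one_eq_one z hz)

end Place

end Fermat.FLAT.Curve
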